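import Mathlib

/-!
# S25 / ALGCHARTS, leaf C2 (core commutative algebra): finiteness of the divisor of a section

Abstract two-chart situation over a base ring `A`: rings `R₀ → R₀₁ ← R₁`, elements `x : R₀`,
`y : R₁` with `x * y = 1` in `R₀₁`, `R₀` finite over `A[x]` and `R₁` finite over `A[y]`.
Let `Q₀`, `Q₁` be finitely generated modules over `R₀`, `R₁` with a common localization
`Q₀[1/x] = Q₀₁ = Q₁[1/y]` (think: the cokernels of a section `s = (s₀, s₁)` of a gluing datum).
If `Q₁ = y Q₁` (the section generates along `y = 0`), then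

* `exists_aeval_smul_eq_zero_of_smul_surjective` : some `p(y)`, `p ∈ 1 + X A[X]`, kills `Q₁`;
* `bijective_of_smul_surjective` : `Q₁ → Q₀₁` is bijective;
* `exists_monic_aeval_smul_eq_zero_of_two_charts` : a monic polynomial in `x` kills `Q₀`;
* `finite_of_two_charts` : `Q₀` is a finite `A`-module (the divisor of `s` is finite over the base);
* `finitePresentation_of_monic_aeval_smul_eq_zero` : a finitely presented `R₀`-module killed by
  a monic polynomial in `x` is finitely presented over `A` (if `R₀` is f.p. over `A[x]`), hence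
* `projective_of_two_charts` : if moreover `Q₀` is `A`-flat, it is finite projective over `A`.
-/

set_option autoImplicit false

namespace Fermat.Agent.S25.H791

open Polynomial

/-! ## Modules over `A[X]` killed by a monic polynomial -/

section Monic

variable {A M : Type*} [CommRing A] [AddCommGroup M] [Module A M]
  [Module A[X] M] [IsScalarTower A A[X] M]

/-- A finitely generated `A[X]`-module killed by a monic polynomial is finite over `A`. -/
theorem finite_of_monic_smul_eq_zero [Module.Finite A[X] M]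
    (F : A[X]) (hF : F.Monic) (hkill : ∀ m : M, F • m = 0) : Module.Finite A M := by
  have htor : Module.IsTorsionBySet A[X] M (Ideal.span {F} : Ideal A[X]) := by
    intro m a
    obtain ⟨c, hc⟩ := Ideal.mem_span_singleton'.mp a.2
    rw [← hc, mul_smul, hkill, smul_zero]
  let _ : Module (A[X] ⧸ (Ideal.span {F} : Ideal A[X])) M := htor.module
  have : IsScalarTower A (A[X] ⧸ (Ideal.span {F} : Ideal A[X])) M := htor.isScalarTower
  have : IsScalarTower A[X] (A[X] ⧸ (Ideal.span {F} : Ideal A[X])) M := htor.isScalarTower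
  have : Module.Finite (A[X] ⧸ (Ideal.span {F} : Ideal A[X])) M :=
    Module.Finite.of_restrictScalars_finite A[X] _ M
  have : Module.Finite A (A[X] ⧸ (Ideal.span {F} : Ideal A[X])) := hF.finite_adjoinRoot
  exact Module.Finite.trans (A[X] ⧸ (Ideal.span {F} : Ideal A[X])) M

/-- A finitely presented `A[X]`-module killed by a monic polynomial is finitely presented
over `A`. -/
theorem finitePresentation_of_monic_smul_eq_zero [Module.FinitePresentation A[X] M]
    (F : A[X]) (hF : F.Monic) (hkill : ∀ m : M, F • m = 0) : Module.FinitePresentation A M := by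
  have htor : Module.IsTorsionBySet A[X] M (Ideal.span {F} : Ideal A[X]) := by
    intro m a
    obtain ⟨c, hc⟩ := Ideal.mem_span_singleton'.mp a.2
    rw [← hc, mul_smul, hkill, smul_zero]
  let _ : Module (A[X] ⧸ (Ideal.span {F} : Ideal A[X])) M := htor.module
  have : IsScalarTower A (A[X] ⧸ (Ideal.span {F} : Ideal A[X])) M := htor.isScalarTower
  have : IsScalarTower A[X] (A[X] ⧸ (Ideal.span {F} : Ideal A[X])) M := htor.isScalarTower
  have hbc : IsBaseChange (A[X] ⧸ (Ideal.span {F} : Ideal A[X]))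
      (LinearMap.id : M →ₗ[A[X]] M) := by
    apply IsBaseChange.of_lift_unique
    intro Q _ _ _ _ g
    have hg : ∀ (c : A[X] ⧸ (Ideal.span {F} : Ideal A[X])) (m : M), g (c • m) = c • g m := by
      intro c m
      obtain ⟨c, rfl⟩ := Ideal.Quotient.mk_surjective c
      have h1 : (Ideal.Quotient.mk (Ideal.span {F} : Ideal A[X]) c) • m = c • m := rfl
      have h2 : (Ideal.Quotient.mk (Ideal.span {F} : Ideal A[X]) c) • g m = c • g m := by
        rw [← Ideal.Quotient.algebraMap_eq, algebraMap_smul]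
      rw [h1, h2, map_smul]
    refine ⟨{ toFun := g, map_add' := g.map_add, map_smul' := hg }, ?_, ?_⟩
    · ext m; rfl
    · intro g' hg'
      ext m
      have := congrArg (fun φ => φ m) hg'
      simpa using this
  have : Module.FinitePresentation (A[X] ⧸ (Ideal.span {F} : Ideal A[X])) M :=
    FinitePresentation.of_isBaseChange _ hbc
  have : Module.Finite A (A[X] ⧸ (Ideal.span {F} : Ideal A[X])) := hF.finite_adjoinRoot
  have : Module.Free A (A[X] ⧸ (Ideal.span {F} : Ideal A[X])) := hF.free_adjoinRoot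
  have : Module.FinitePresentation A (A[X] ⧸ (Ideal.span {F} : Ideal A[X])) :=
    Module.finitePresentation_of_projective _ _
  exact Module.FinitePresentation.trans A M (A[X] ⧸ (Ideal.span {F} : Ideal A[X]))

end Monic

/-! ## Modules over an algebra `R` which is finite over `A[x]` -/

section Ring

variable {A R M : Type*} [CommRing A] [CommRing R] [Algebra A R]
  [AddCommGroup M] [Module R M]

/-- The `A[X]`-module structure on an `R`-module given by `X ↦ x`. -/
noncomputable abbrev polyModule (A : Type*) {R : Type*} (M : Type*) [CommRing A] [CommRing R] [Algebra A R]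
    [AddCommGroup M] [Module R M] (x : R) : Module A[X] M :=
  Module.compHom M ((aeval x : A[X] →ₐ[A] R) : A[X] →+* R)

/-- **Nakayama along `y`.** If `R` is finite over `A[y]`, `M` is a finitely generated
`R`-module and `M = y M`, then some `p(y)` with `p ∈ 1 + X A[X]` kills `M`. -/
theorem exists_aeval_smul_eq_zero_of_smul_surjective [Module.Finite R M]
    (y : R) (hfin : (aeval y : A[X] →ₐ[A] R).Finite) (hy : ∀ m : M, ∃ m', y • m' = m) :
    ∃ p : A[X], p.coeff 0 = 1 ∧ ∀ m : M, aeval y p • m = 0 := by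
  let _ : Algebra A[X] R := ((aeval y : A[X] →ₐ[A] R) : A[X] →+* R).toAlgebra
  let _ : Module A[X] M := polyModule A M y
  have htower : IsScalarTower A[X] R M :=
    IsScalarTower.of_algebraMap_smul (fun _ _ => rfl)
  have : Module.Finite A[X] R := hfin
  have : Module.Finite A[X] M := Module.Finite.trans R M
  obtain ⟨p, hp1, hp⟩ := Submodule.exists_sub_one_mem_and_smul_eq_zero_of_fg_of_le_smul
    (Ideal.span {(X : A[X])}) (⊤ : Submodule A[X] M) Module.Finite.fg_top (by
      intro m _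
      obtain ⟨m', rfl⟩ := hy m
      have : y • m' = (X : A[X]) • m' := by
        change y • m' = (aeval y (X : A[X])) • m'
        rw [aeval_X]
      rw [this]
      exact Submodule.smul_mem_smul (Ideal.subset_span rfl) Submodule.mem_top)
  refine ⟨p, ?_, fun m => hp m Submodule.mem_top⟩
  obtain ⟨c, hc⟩ := Ideal.mem_span_singleton.mp hp1
  have h0 : (p - 1).coeff 0 = 0 := by rw [hc]; simp
  rw [coeff_sub, coeff_one_zero, sub_eq_zero] at h0
  exact h0

variable [Module A M] [IsScalarTower A R M]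

/-- A finitely generated `R`-module killed by a monic polynomial in `x` is finite over `A`, if
`R` is finite over `A[x]`. -/
theorem finite_of_monic_aeval_smul_eq_zero [Module.Finite R M]
    (x : R) (hfin : (aeval x : A[X] →ₐ[A] R).Finite) (F : A[X]) (hF : F.Monic)
    (hkill : ∀ m : M, aeval x F • m = 0) : Module.Finite A M := by
  let _ : Algebra A[X] R := ((aeval x : A[X] →ₐ[A] R) : A[X] →+* R).toAlgebra
  let _ : Module A[X] M := polyModule A M x
  have htower : IsScalarTower A[X] R M :=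
    IsScalarTower.of_algebraMap_smul (fun _ _ => rfl)
  have htower' : IsScalarTower A A[X] M := ⟨fun a p m => by
    change (aeval x (a • p)) • m = a • (aeval x p • m)
    rw [map_smul, smul_assoc]⟩
  have : Module.Finite A[X] R := hfin
  have : Module.Finite A[X] M := Module.Finite.trans R M
  exact finite_of_monic_smul_eq_zero F hF hkill

/-- A finitely presented `R`-module killed by a monic polynomial in `x` is finitely presented
over `A`, if `R` is finitely presented as a module over `A[x]`. -/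
theorem finitePresentation_of_monic_aeval_smul_eq_zero [Module.FinitePresentation R M]
    (x : R)
    (hfp : letI : Algebra A[X] R := ((aeval x : A[X] →ₐ[A] R) : A[X] →+* R).toAlgebra
      Module.FinitePresentation A[X] R)
    (F : A[X]) (hF : F.Monic)
    (hkill : ∀ m : M, aeval x F • m = 0) : Module.FinitePresentation A M := by
  let _ : Algebra A[X] R := ((aeval x : A[X] →ₐ[A] R) : A[X] →+* R).toAlgebra
  let _ : Module A[X] M := polyModule A M x
  have htower : IsScalarTower A[X] R M :=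
    IsScalarTower.of_algebraMap_smul (fun _ _ => rfl)
  have htower' : IsScalarTower A A[X] M := ⟨fun a p m => by
    change (aeval x (a • p)) • m = a • (aeval x p • m)
    rw [map_smul, smul_assoc]⟩
  have : Module.FinitePresentation A[X] R := hfp
  have : Module.FinitePresentation A[X] M := Module.FinitePresentation.trans A[X] M R
  exact finitePresentation_of_monic_smul_eq_zero F hF hkill

end Ring

/-! ## The two-chart situation -/

section TwoCharts

variable {A R₀ R₁ R₀₁ Q₀ Q₁ Q₀₁ : Type*} [CommRing A] [CommRing R₀] [CommRing R₁]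
  [CommRing R₀₁] [Algebra A R₀] [Algebra A R₁] [Algebra R₀ R₀₁] [Algebra R₁ R₀₁]
  [AddCommGroup Q₀] [Module R₀ Q₀]
  [AddCommGroup Q₁] [Module R₁ Q₁]
  [AddCommGroup Q₀₁] [Module R₀₁ Q₀₁] [Module R₀ Q₀₁] [Module R₁ Q₀₁]
  [IsScalarTower R₀ R₀₁ Q₀₁] [IsScalarTower R₁ R₀₁ Q₀₁]

omit [Algebra A R₀] [Algebra A R₁] [Algebra R₀ R₀₁] [Module R₀ Q₀₁]
  [IsScalarTower R₀ R₀₁ Q₀₁] in
/-- If `Q₁ = y Q₁` for a finitely generated `R₁`-module, then `Q₁ → Q₁[1/y]` is bijective. -/
theorem bijective_of_smul_surjective [Module.Finite R₁ Q₁] (y : R₁)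
    (f₁ : Q₁ →ₗ[R₁] Q₀₁) [IsLocalizedModule (Submonoid.powers y) f₁]
    (hy : ∀ q : Q₁, ∃ q', y • q' = q) : Function.Bijective f₁ := by
  obtain ⟨r, hr1, hr⟩ := Submodule.exists_sub_one_mem_and_smul_eq_zero_of_fg_of_le_smul
    (Ideal.span {y}) (⊤ : Submodule R₁ Q₁) Module.Finite.fg_top (by
      intro m _
      obtain ⟨m', rfl⟩ := hy m
      exact Submodule.smul_mem_smul (Ideal.subset_span rfl) Submodule.mem_top)
  obtain ⟨t, ht⟩ := Ideal.mem_span_singleton.mp hr1
  -- `y * (-t)` acts as the identity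
  have hinv : ∀ q : Q₁, (y * (-t)) • q = q := by
    intro q
    have h1 : r • q = 0 := hr q Submodule.mem_top
    have h2 : r = 1 + y * t := by rw [← ht]; ring
    rw [h2, add_smul, one_smul] at h1
    have h3 : (y * t) • q = -q := eq_neg_of_add_eq_zero_right h1
    rw [mul_neg, neg_smul, h3, neg_neg]
  have hinvn : ∀ (n : ℕ) (q : Q₁), y ^ n • ((-t) ^ n • q) = q := by
    intro n
    induction n with
    | zero => intro q; simp
    | succ n ih =>
      intro q
      have : y ^ (n + 1) • (-t) ^ (n + 1) • q = y ^ n • (-t) ^ n • ((y * (-t)) • q) := by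
        simp only [← mul_smul]
        congr 1
        ring
      rw [this, hinv, ih]
  have hpowinj : ∀ (n : ℕ) (q : Q₁), y ^ n • q = 0 → q = 0 := by
    intro n q hq
    have := hinvn n q
    rw [smul_comm, hq, smul_zero] at this
    exact this.symm
  constructor
  · rw [injective_iff_map_eq_zero]
    intro q hq
    obtain ⟨⟨_, n, rfl⟩, hc⟩ := IsLocalizedModule.exists_of_eq (S := Submonoid.powers y)
      (f := f₁) (x₁ := q) (x₂ := 0) (by rw [hq, map_zero])
    rw [smul_zero] at hc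
    exact hpowinj n q hc
  · intro z
    obtain ⟨⟨q, ⟨_, n, rfl⟩⟩, hq⟩ := IsLocalizedModule.surj (Submonoid.powers y) f₁ z
    refine ⟨(-t) ^ n • q, ?_⟩
    have hu := IsLocalizedModule.map_units f₁ (⟨y ^ n, n, rfl⟩ : Submonoid.powers y)
    apply (Module.End.isUnit_iff _).mp hu |>.injective
    simp only [Module.algebraMap_end_apply]
    rw [← map_smul, hinvn]
    exact hq.symm

variable [Algebra A R₀₁] [IsScalarTower A R₀ R₀₁] [IsScalarTower A R₁ R₀₁]

omit [Module R₀ Q₀₁] [IsScalarTower R₀ R₀₁ Q₀₁] [AddCommGroup Q₀] [Module R₀ Q₀] in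
/-- In the two-chart situation, a polynomial `p(y)` killing `Q₁` gives the polynomial
`(reflect p)(x)` killing `Q₀₁ = Q₁[1/y]`. -/
theorem aeval_reflect_smul_eq_zero (x : R₀) (y : R₁)
    (hxy : algebraMap R₀ R₀₁ x * algebraMap R₁ R₀₁ y = 1)
    (f₁ : Q₁ →ₗ[R₁] Q₀₁) (hf₁ : ∀ z : Q₀₁, ∃ (n : ℕ) (q : Q₁), y ^ n • z = f₁ q)
    (p : A[X]) (hp : ∀ q : Q₁, aeval y p • q = 0) (z : Q₀₁) :
    algebraMap R₀ R₀₁ (aeval x (reflect p.natDegree p)) • z = 0 := by
  set X' : R₀₁ := algebraMap R₀ R₀₁ x with hX'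
  set Y' : R₀₁ := algebraMap R₁ R₀₁ y with hY'
  have hYX : Y' * X' = 1 := by rw [mul_comm]; exact hxy
  -- `p(Y')` kills `Q₀₁`
  have hpY : ∀ z : Q₀₁, (aeval Y' p) • z = 0 := by
    intro z
    obtain ⟨n, q, hq⟩ := hf₁ z
    have h1 : z = X' ^ n • (Y' ^ n • z) := by
      rw [← mul_smul, ← mul_pow, hxy, one_pow, one_smul]
    have h2 : Y' ^ n • z = f₁ q := by
      rw [← hq, hY', ← map_pow, algebraMap_smul]
    have h3 : aeval Y' p • f₁ q = 0 := by
      have : aeval Y' p = algebraMap R₁ R₀₁ (aeval y p) := by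
        rw [hY']
        exact aeval_algebraMap_apply R₀₁ y p
      rw [this, algebraMap_smul, ← map_smul, hp, map_zero]
    rw [h1, h2, smul_comm, h3, smul_zero]
  let _ : Invertible Y' := ⟨X', hxy, hYX⟩
  have hrefl := eval₂_reflect_mul_pow (algebraMap A R₀₁) Y' p.natDegree p le_rfl
  have hXe : algebraMap R₀ R₀₁ (aeval x (reflect p.natDegree p)) =
      eval₂ (algebraMap A R₀₁) (⅟Y') (reflect p.natDegree p) := by
    have : (⅟Y' : R₀₁) = X' := rfl
    rw [this, hX', ← aeval_def, aeval_algebraMap_apply]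
  have hz : z = Y' ^ p.natDegree • (X' ^ p.natDegree • z) := by
    rw [← mul_smul, ← mul_pow, hYX, one_pow, one_smul]
  rw [hz, ← mul_smul, hXe, hrefl, ← aeval_def, hpY]

variable [Module A Q₀] [IsScalarTower A R₀ Q₀]

omit [Module A Q₀] [IsScalarTower A R₀ Q₀] in
/-- **C2, core.** In the two-chart situation with `Q₁ = y Q₁`, a monic polynomial in `x`
kills `Q₀`. -/
theorem exists_monic_aeval_smul_eq_zero_of_two_charts [Module.Finite R₀ Q₀]
    [Module.Finite R₁ Q₁] (x : R₀) (y : R₁)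
    (hxy : algebraMap R₀ R₀₁ x * algebraMap R₁ R₀₁ y = 1)
    (hfin₁ : (aeval y : A[X] →ₐ[A] R₁).Finite)
    (f₀ : Q₀ →ₗ[R₀] Q₀₁) (f₁ : Q₁ →ₗ[R₁] Q₀₁)
    (hf₀ : ∀ q : Q₀, f₀ q = 0 → ∃ n : ℕ, x ^ n • q = 0)
    (hf₁ : ∀ z : Q₀₁, ∃ (n : ℕ) (q : Q₁), y ^ n • z = f₁ q)
    (hy : ∀ q : Q₁, ∃ q', y • q' = q) :
    ∃ F : A[X], F.Monic ∧ ∀ q : Q₀, aeval x F • q = 0 := by
  classical
  obtain ⟨p, hp0, hp⟩ := exists_aeval_smul_eq_zero_of_smul_surjective (A := A) y hfin₁ hy
  set P₂ : A[X] := reflect p.natDegree p with hP₂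
  have hP₂monic : P₂.Monic := by
    apply monic_of_natDegree_le_of_coeff_eq_one p.natDegree
    · exact natDegree_reflect_le.trans (by simp)
    · rw [hP₂, coeff_reflect, revAt_le le_rfl, Nat.sub_self, hp0]
  have hkill01 := aeval_reflect_smul_eq_zero (A := A) x y hxy f₁ hf₁ p hp
  -- for every element of `Q₀` some `x ^ n * P₂(x)` kills it
  have hloc : ∀ q : Q₀, ∃ n : ℕ, x ^ n • (aeval x P₂ • q) = 0 := by
    intro q
    apply hf₀
    rw [map_smul, ← algebraMap_smul R₀₁ (aeval x P₂) (f₀ q)]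
    exact hkill01 (f₀ q)
  obtain ⟨S, hS⟩ := (Module.Finite.fg_top : (⊤ : Submodule R₀ Q₀).FG)
  choose n hn using hloc
  refine ⟨X ^ (S.sup n) * P₂, (monic_X_pow _).mul hP₂monic, fun q => ?_⟩
  have hq : q ∈ Submodule.span R₀ (S : Set Q₀) := hS ▸ Submodule.mem_top
  induction hq using Submodule.span_induction with
  | mem s hs =>
    rw [map_mul, map_pow, aeval_X, mul_smul,
      ← Nat.sub_add_cancel (Finset.le_sup (f := n) hs), pow_add, mul_smul, hn, smul_zero]
  | zero => rw [smul_zero]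
  | add a b _ _ ha hb => rw [smul_add, ha, hb, add_zero]
  | smul r a _ ha => rw [smul_comm, ha, smul_zero]

/-- **C2, core.** In the two-chart situation with `Q₁ = y Q₁`, the module `Q₀` is finite
over the base ring `A`. -/
theorem finite_of_two_charts [Module.Finite R₀ Q₀] [Module.Finite R₁ Q₁] (x : R₀) (y : R₁)
    (hxy : algebraMap R₀ R₀₁ x * algebraMap R₁ R₀₁ y = 1)
    (hfin₀ : (aeval x : A[X] →ₐ[A] R₀).Finite) (hfin₁ : (aeval y : A[X] →ₐ[A] R₁).Finite)
    (f₀ : Q₀ →ₗ[R₀] Q₀₁) (f₁ : Q₁ →ₗ[R₁] Q₀₁)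
    (hf₀ : ∀ q : Q₀, f₀ q = 0 → ∃ n : ℕ, x ^ n • q = 0)
    (hf₁ : ∀ z : Q₀₁, ∃ (n : ℕ) (q : Q₁), y ^ n • z = f₁ q)
    (hy : ∀ q : Q₁, ∃ q', y • q' = q) : Module.Finite A Q₀ := by
  obtain ⟨F, hF, hkill⟩ := exists_monic_aeval_smul_eq_zero_of_two_charts (A := A) x y hxy hfin₁
    f₀ f₁ hf₀ hf₁ hy
  exact finite_of_monic_aeval_smul_eq_zero x hfin₀ F hF hkill

/-- **C2, core.** In the two-chart situation with `Q₁ = y Q₁`: if `Q₀` is finitely presented
over `R₀`, flat over `A`, and `R₀` is finitely presented as an `A[x]`-module, then `Q₀` is a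
finite projective `A`-module. -/
theorem projective_of_two_charts [Module.FinitePresentation R₀ Q₀] [Module.Finite R₁ Q₁]
    [Module.Flat A Q₀] (x : R₀) (y : R₁)
    (hxy : algebraMap R₀ R₀₁ x * algebraMap R₁ R₀₁ y = 1)
    (hfp₀ : letI : Algebra A[X] R₀ := ((aeval x : A[X] →ₐ[A] R₀) : A[X] →+* R₀).toAlgebra
      Module.FinitePresentation A[X] R₀)
    (hfin₁ : (aeval y : A[X] →ₐ[A] R₁).Finite)
    (f₀ : Q₀ →ₗ[R₀] Q₀₁) (f₁ : Q₁ →ₗ[R₁] Q₀₁)
    (hf₀ : ∀ q : Q₀, f₀ q = 0 → ∃ n : ℕ, x ^ n • q = 0)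
    (hf₁ : ∀ z : Q₀₁, ∃ (n : ℕ) (q : Q₁), y ^ n • z = f₁ q)
    (hy : ∀ q : Q₁, ∃ q', y • q' = q) :
    Module.Finite A Q₀ ∧ Module.Projective A Q₀ := by
  obtain ⟨F, hF, hkill⟩ := exists_monic_aeval_smul_eq_zero_of_two_charts (A := A) x y hxy hfin₁
    f₀ f₁ hf₀ hf₁ hy
  have hfp : Module.FinitePresentation A Q₀ :=
    finitePresentation_of_monic_aeval_smul_eq_zero x hfp₀ F hF hkill
  exact ⟨inferInstance, Module.Flat.projective_of_finitePresentation⟩

end TwoCharts

/-! ## Bridges: localized-module form, equivariant trivialisations -/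

section Bridges

variable {A R₀ R₁ R₀₁ Q₀ Q₁ Q₀₁ : Type*} [CommRing A] [CommRing R₀] [CommRing R₁]
  [CommRing R₀₁] [Algebra A R₀] [Algebra A R₁] [Algebra R₀ R₀₁] [Algebra R₁ R₀₁]
  [AddCommGroup Q₀] [Module R₀ Q₀]
  [AddCommGroup Q₁] [Module R₁ Q₁]
  [AddCommGroup Q₀₁] [Module R₀₁ Q₀₁] [Module R₀ Q₀₁] [Module R₁ Q₀₁]
  [IsScalarTower R₀ R₀₁ Q₀₁] [IsScalarTower R₁ R₀₁ Q₀₁]
  [Algebra A R₀₁] [IsScalarTower A R₀ R₀₁] [IsScalarTower A R₁ R₀₁]
  [Module A Q₀] [IsScalarTower A R₀ Q₀]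

omit [Algebra A R₀] [Algebra A R₁] [Algebra R₀ R₀₁] [Algebra R₁ R₀₁] [Module R₀₁ Q₀₁]
  [Module R₁ Q₀₁] [IsScalarTower R₀ R₀₁ Q₀₁] [IsScalarTower R₁ R₀₁ Q₀₁] [Algebra A R₀₁]
  [IsScalarTower A R₀ R₀₁] [IsScalarTower A R₁ R₀₁] [Module A Q₀] [IsScalarTower A R₀ Q₀]
  [CommRing A] [CommRing R₁] [CommRing R₀₁] in
/-- The kernel of a localization map at the powers of `x` is `x`-power torsion. -/
theorem exists_pow_smul_eq_zero_of_isLocalizedModule (x : R₀) (f₀ : Q₀ →ₗ[R₀] Q₀₁)
    [IsLocalizedModule (Submonoid.powers x) f₀] (q : Q₀) (hq : f₀ q = 0) :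
    ∃ n : ℕ, x ^ n • q = 0 := by
  obtain ⟨⟨_, n, rfl⟩, hc⟩ := IsLocalizedModule.exists_of_eq (S := Submonoid.powers x)
    (f := f₀) (x₁ := q) (x₂ := 0) (by rw [hq, map_zero])
  rw [smul_zero] at hc
  exact ⟨n, hc⟩

omit [Algebra A R₀] [Algebra A R₁] [Algebra R₀ R₀₁] [Algebra R₁ R₀₁] [Module R₀₁ Q₀₁]
  [Module R₀ Q₀₁] [IsScalarTower R₀ R₀₁ Q₀₁] [IsScalarTower R₁ R₀₁ Q₀₁] [Algebra A R₀₁]
  [IsScalarTower A R₀ R₀₁] [IsScalarTower A R₁ R₀₁] [Module A Q₀] [IsScalarTower A R₀ Q₀]
  [CommRing A] [CommRing R₀] [CommRing R₀₁] [AddCommGroup Q₀] [Module R₀ Q₀] in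
/-- Every element of a localization at the powers of `y` has a multiple by a power of `y` in
the image. -/
theorem exists_pow_smul_eq_of_isLocalizedModule (y : R₁) (f₁ : Q₁ →ₗ[R₁] Q₀₁)
    [IsLocalizedModule (Submonoid.powers y) f₁] (z : Q₀₁) :
    ∃ (n : ℕ) (q : Q₁), y ^ n • z = f₁ q := by
  obtain ⟨⟨q, ⟨_, n, rfl⟩⟩, hq⟩ := IsLocalizedModule.surj (Submonoid.powers y) f₁ z
  exact ⟨n, q, hq⟩

/-- **C2, core**, localized-module form of `finite_of_two_charts`. -/
theorem finite_of_two_charts_of_isLocalizedModule [Module.Finite R₀ Q₀] [Module.Finite R₁ Q₁]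
    (x : R₀) (y : R₁) (hxy : algebraMap R₀ R₀₁ x * algebraMap R₁ R₀₁ y = 1)
    (hfin₀ : (aeval x : A[X] →ₐ[A] R₀).Finite) (hfin₁ : (aeval y : A[X] →ₐ[A] R₁).Finite)
    (f₀ : Q₀ →ₗ[R₀] Q₀₁) (f₁ : Q₁ →ₗ[R₁] Q₀₁)
    [IsLocalizedModule (Submonoid.powers x) f₀] [IsLocalizedModule (Submonoid.powers y) f₁]
    (hy : ∀ q : Q₁, ∃ q', y • q' = q) : Module.Finite A Q₀ :=
  finite_of_two_charts x y hxy hfin₀ hfin₁ f₀ f₁
    (exists_pow_smul_eq_zero_of_isLocalizedModule x f₀)
    (exists_pow_smul_eq_of_isLocalizedModule y f₁) hy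

/-- **C2, core**, localized-module form of `projective_of_two_charts`. -/
theorem projective_of_two_charts_of_isLocalizedModule [Module.FinitePresentation R₀ Q₀]
    [Module.Finite R₁ Q₁] [Module.Flat A Q₀] (x : R₀) (y : R₁)
    (hxy : algebraMap R₀ R₀₁ x * algebraMap R₁ R₀₁ y = 1)
    (hfp₀ : letI : Algebra A[X] R₀ := ((aeval x : A[X] →ₐ[A] R₀) : A[X] →+* R₀).toAlgebra
      Module.FinitePresentation A[X] R₀)
    (hfin₁ : (aeval y : A[X] →ₐ[A] R₁).Finite)
    (f₀ : Q₀ →ₗ[R₀] Q₀₁) (f₁ : Q₁ →ₗ[R₁] Q₀₁)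
    [IsLocalizedModule (Submonoid.powers x) f₀] [IsLocalizedModule (Submonoid.powers y) f₁]
    (hy : ∀ q : Q₁, ∃ q', y • q' = q) :
    Module.Finite A Q₀ ∧ Module.Projective A Q₀ :=
  projective_of_two_charts x y hxy hfp₀ hfin₁ f₀ f₁
    (exists_pow_smul_eq_zero_of_isLocalizedModule x f₀)
    (exists_pow_smul_eq_of_isLocalizedModule y f₁) hy

end Bridges

section Equivariant

variable {A R : Type*} [CommRing A] [CommRing R] [Algebra A R]

/-- An `A`-linear trivialisation `R ≃ A[X]^n` which is equivariant for `x ↔ X` is linear over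
`A[X]` (acting on `R` through `X ↦ x`). -/
theorem equivariant_map_aeval_mul (x : R) {n : ℕ} (Φ : R ≃ₗ[A] (Fin n → A[X]))
    (hΦ : ∀ z, Φ (x * z) = (X : A[X]) • Φ z) (p : A[X]) (z : R) :
    Φ (aeval x p * z) = p • Φ z := by
  induction p using Polynomial.induction_on' with
  | add p q hp hq => rw [map_add, add_mul, map_add, hp, hq, add_smul]
  | monomial m a =>
    have hpow : ∀ (m : ℕ) (z : R), Φ (x ^ m * z) = (X : A[X]) ^ m • Φ z := by
      intro m
      induction m with
      | zero => intro z; simp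
      | succ m ih => intro z; rw [pow_succ, mul_assoc, ih, hΦ, pow_succ, mul_smul]
    have h1 : aeval x (monomial m a) * z = a • (x ^ m * z) := by
      rw [← C_mul_X_pow_eq_monomial, map_mul, aeval_C, map_pow, aeval_X, mul_assoc,
        ← Algebra.smul_def]
    have h2 : (monomial m a : A[X]) • Φ z = a • ((X : A[X]) ^ m • Φ z) := by
      rw [← C_mul_X_pow_eq_monomial, mul_smul]
      funext i
      simp only [Pi.smul_apply, smul_eq_mul, Polynomial.smul_eq_C_mul]
    rw [h1, map_smul, hpow, h2]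

/-- If `R ≃ A[X]^n` equivariantly, then `R` is finite over `A[x]`. -/
theorem finite_aeval_of_equivariant (x : R) {n : ℕ} (Φ : R ≃ₗ[A] (Fin n → A[X]))
    (hΦ : ∀ z, Φ (x * z) = (X : A[X]) • Φ z) : (aeval x : A[X] →ₐ[A] R).Finite := by
  let _ : Algebra A[X] R := ((aeval x : A[X] →ₐ[A] R) : A[X] →+* R).toAlgebra
  let Φ' : R ≃ₗ[A[X]] (Fin n → A[X]) :=
    { Φ with
      map_smul' := fun p z => by
        change Φ (aeval x p * z) = p • Φ z
        exact equivariant_map_aeval_mul x Φ hΦ p z }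
  exact Module.Finite.equiv Φ'.symm

/-- If `R ≃ A[X]^n` equivariantly, then `R` is finitely presented over `A[x]`. -/
theorem finitePresentation_aeval_of_equivariant (x : R) {n : ℕ} (Φ : R ≃ₗ[A] (Fin n → A[X]))
    (hΦ : ∀ z, Φ (x * z) = (X : A[X]) • Φ z) :
    letI : Algebra A[X] R := ((aeval x : A[X] →ₐ[A] R) : A[X] →+* R).toAlgebra
    Module.FinitePresentation A[X] R := by
  let _ : Algebra A[X] R := ((aeval x : A[X] →ₐ[A] R) : A[X] →+* R).toAlgebra
  let Φ' : R ≃ₗ[A[X]] (Fin n → A[X]) :=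
    { Φ with
      map_smul' := fun p z => by
        change Φ (aeval x p * z) = p • Φ z
        exact equivariant_map_aeval_mul x Φ hΦ p z }
  exact Module.FinitePresentation.of_equiv Φ'.symm

end Equivariant

end Fermat.Agent.S25.H791
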