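import Fermat.Agent.S25.H11.ACDefs
import Fermat.Agent.S25.H250.ChartAlg
import Fermat.Agent.S25.H791.TwoChartFinite

/-!
# S25 / ALGCHARTS, shared sub-lemma SH2 (helper791): the ideal of the points `q`

For `k`-points `q i : B₀ →ₐ[k] k` and a `k`-algebra `A`, `ptIdeal q A = ∏ ker (ptHom (q i) A)`.

* `ker_ptHom_eq_span` : `ker (ptHom p A)` is generated by the `1 ⊗ b - p b ⊗ 1`;
* `ptHom_tensorMapLeft` : naturality of `ptHom` in `A`;
* `map_ker_ptHom`, `map_ptIdeal` : `(ptIdeal q A) · (A' ⊗ B₀) = ptIdeal q A'`;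
* `aeval_ptPoly_mem_ptIdeal` : the monic polynomial `∏ (X - q i x)` evaluated at `1 ⊗ x` lies
  in `ptIdeal q A`;
* `finite_aeval_tmul` : `A ⊗ B₀` is finite over `A[X]` via `X ↦ 1 ⊗ x` (curve chart);
* `finite_quotient_ptIdeal_smul` : `N ⧸ ptIdeal q A • ⊤` is a finite `A`-module for every
  finitely generated `A ⊗ B₀`-module `N`;  `finite_quotient_vanq`.
-/

set_option autoImplicit false
set_option linter.style.haveILetI false
set_option linter.unusedSectionVars false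

universe u

open scoped TensorProduct
open Polynomial

namespace Fermat.Agent.S25.H791

open Fermat.Agent.S25 Fermat.Agent.S25.H11

variable {k : Type u} [Field k]
  {B₀ B₁ B₀₁ : Type u} [CommRing B₀] [CommRing B₁] [CommRing B₀₁]
  [Algebra k B₀] [Algebra k B₁] [Algebra k B₀₁] [Algebra B₀ B₀₁] [Algebra B₁ B₀₁]
  [IsScalarTower k B₀ B₀₁] [IsScalarTower k B₁ B₀₁]

section Ker

variable (A : Type u) [CommRing A] [Algebra k A]

/-- The generator `1 ⊗ b - p b ⊗ 1` of the kernel of the point `p`. -/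
def ptGen (p : B₀ →ₐ[k] k) (b : B₀) : A ⊗[k] B₀ :=
  (1 : A) ⊗ₜ[k] b - (algebraMap k A (p b)) ⊗ₜ[k] (1 : B₀)

theorem ptHom_ptGen (p : B₀ →ₐ[k] k) (b : B₀) : ptHom p A (ptGen A p b) = 0 := by
  simp [ptGen]

theorem ptHom_algebraMap (p : B₀ →ₐ[k] k) (a : A) :
    ptHom p A (algebraMap A (A ⊗[k] B₀) a) = a := by
  rw [Algebra.TensorProduct.algebraMap_apply, ptHom_tmul]
  simp

/-- `z - ι (p z)` lies in the ideal generated by the `ptGen`. -/
theorem sub_algebraMap_ptHom_mem (p : B₀ →ₐ[k] k) (z : A ⊗[k] B₀) :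
    z - algebraMap A (A ⊗[k] B₀) (ptHom p A z) ∈
      Ideal.span (Set.range (ptGen A p)) := by
  induction z using TensorProduct.induction_on with
  | zero => simp
  | add z w hz hw =>
    have : z + w - algebraMap A (A ⊗[k] B₀) (ptHom p A (z + w)) =
        (z - algebraMap A (A ⊗[k] B₀) (ptHom p A z)) +
          (w - algebraMap A (A ⊗[k] B₀) (ptHom p A w)) := by
      rw [map_add, map_add]; ring
    rw [this]
    exact Ideal.add_mem _ hz hw
  | tmul a b =>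
    have : a ⊗ₜ[k] b - algebraMap A (A ⊗[k] B₀) (ptHom p A (a ⊗ₜ[k] b)) =
        (a ⊗ₜ[k] (1 : B₀)) * ptGen A p b := by
      rw [ptHom_tmul, Algebra.TensorProduct.algebraMap_apply, ptGen, mul_sub,
        Algebra.TensorProduct.tmul_mul_tmul, Algebra.TensorProduct.tmul_mul_tmul]
      simp
    rw [this]
    exact Ideal.mul_mem_left _ _ (Ideal.subset_span ⟨b, rfl⟩)

/-- The kernel of the point `p` is generated by the `1 ⊗ b - p b ⊗ 1`. -/
theorem ker_ptHom_eq_span (p : B₀ →ₐ[k] k) :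
    RingHom.ker (ptHom p A) = Ideal.span (Set.range (ptGen A p)) := by
  apply le_antisymm
  · intro z hz
    have h := sub_algebraMap_ptHom_mem A p z
    rw [RingHom.mem_ker] at hz
    rwa [hz, map_zero, sub_zero] at h
  · rw [Ideal.span_le]
    rintro _ ⟨b, rfl⟩
    exact ptHom_ptGen A p b

end Ker

section Map

variable {A A' : Type u} [CommRing A] [Algebra k A] [CommRing A'] [Algebra k A']

theorem tensorMapLeft_tmul (ψ : A →ₐ[k] A') (a : A) (b : B₀) :
    tensorMapLeft k ψ B₀ (a ⊗ₜ[k] b) = ψ a ⊗ₜ[k] b := by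
  simp [tensorMapLeft]

/-- Naturality of the points in the base ring. -/
theorem ptHom_tensorMapLeft (ψ : A →ₐ[k] A') (p : B₀ →ₐ[k] k) (z : A ⊗[k] B₀) :
    ptHom p A' (tensorMapLeft k ψ B₀ z) = ψ (ptHom p A z) := by
  induction z using TensorProduct.induction_on with
  | zero => simp
  | add z w hz hw => simp only [map_add, hz, hw]
  | tmul a b => rw [tensorMapLeft_tmul, ptHom_tmul, ptHom_tmul, map_mul, AlgHom.commutes]

theorem tensorMapLeft_ptGen (ψ : A →ₐ[k] A') (p : B₀ →ₐ[k] k) (b : B₀) :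
    tensorMapLeft k ψ B₀ (ptGen A p b) = ptGen A' p b := by
  rw [ptGen, map_sub, tensorMapLeft_tmul, tensorMapLeft_tmul, map_one, AlgHom.commutes]
  rfl

/-- The ideal of a point commutes with base change. -/
theorem map_ker_ptHom (ψ : A →ₐ[k] A') (p : B₀ →ₐ[k] k) :
    (RingHom.ker (ptHom p A)).map (tensorMapLeft k ψ B₀) = RingHom.ker (ptHom p A') := by
  rw [ker_ptHom_eq_span, ker_ptHom_eq_span, Ideal.map_span]
  congr 1
  ext z
  constructor
  · rintro ⟨_, ⟨b, rfl⟩, rfl⟩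
    exact ⟨b, (tensorMapLeft_ptGen ψ p b).symm⟩
  · rintro ⟨b, rfl⟩
    exact ⟨_, ⟨b, rfl⟩, tensorMapLeft_ptGen ψ p b⟩

/-- **SH2.** The ideal of the divisor `Σ q i` commutes with base change. -/
theorem map_ptIdeal (ψ : A →ₐ[k] A') {m : ℕ} (q : Fin m → (B₀ →ₐ[k] k)) :
    (ptIdeal q A).map (tensorMapLeft k ψ B₀) = ptIdeal q A' := by
  rw [ptIdeal, ptIdeal]
  have h := map_prod (Ideal.mapHom (tensorMapLeft k ψ B₀))
    (fun i => RingHom.ker (ptHom (q i) A)) Finset.univ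
  simp only [Ideal.mapHom_apply] at h
  rw [h]
  exact Finset.prod_congr rfl (fun i _ => map_ker_ptHom ψ (q i))

end Map

section Finite

variable (A : Type u) [CommRing A] [Algebra k A]

/-- The monic polynomial `∏ (X - q i x)` over `A`. -/
noncomputable def ptPoly (x : B₀) {m : ℕ} (q : Fin m → (B₀ →ₐ[k] k)) : A[X] :=
  ∏ i, (X - C (algebraMap k A (q i x)))

theorem ptPoly_monic (x : B₀) {m : ℕ} (q : Fin m → (B₀ →ₐ[k] k)) : (ptPoly A x q).Monic :=
  monic_prod_of_monic _ _ (fun _ _ => monic_X_sub_C _)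

/-- `∏ (x - q i x)` vanishes on the divisor `Σ q i`. -/
theorem aeval_ptPoly_mem_ptIdeal (x : B₀) {m : ℕ} (q : Fin m → (B₀ →ₐ[k] k)) :
    aeval ((1 : A) ⊗ₜ[k] x : A ⊗[k] B₀) (ptPoly A x q) ∈ ptIdeal q A := by
  rw [ptPoly, map_prod, ptIdeal]
  refine Ideal.prod_mem_prod (fun i _ => ?_)
  rw [RingHom.mem_ker, map_sub, aeval_X, aeval_C, map_sub, ptHom_tmul, ptHom_algebraMap,
    one_mul, sub_self]

/-- For a curve chart, `A ⊗ B₀` is finite over `A[X]` via `X ↦ 1 ⊗ x`. -/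
theorem finite_aeval_tmul {x : B₀} {y : B₁} {e : B₁ →ₐ[k] k}
    (hC : IsCurveChart k B₀ B₁ B₀₁ x y e) :
    (aeval ((1 : A) ⊗ₜ[k] x : A ⊗[k] B₀) : A[X] →ₐ[A] A ⊗[k] B₀).Finite := by
  haveI := hC.isDomain₀
  obtain ⟨n, φ, hφ⟩ := H250.exists_equivariant_equiv (H250.aeval_x_injective hC) hC.finite₀
  obtain ⟨Φ, hΦ⟩ := H250.exists_equivariant_equiv_tensor φ hφ A
  exact finite_aeval_of_equivariant _ Φ hΦ

variable {A}

/-- For a finitely generated `A ⊗ B₀`-module `N`, the quotient `N ⧸ I_q N` is a finite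
`A`-module. -/
theorem finite_quotient_ptIdeal_smul {x : B₀} {y : B₁} {e : B₁ →ₐ[k] k}
    (hC : IsCurveChart k B₀ B₁ B₀₁ x y e) {m : ℕ} (q : Fin m → (B₀ →ₐ[k] k))
    (N : Type u) [AddCommGroup N] [Module (A ⊗[k] B₀) N] [Module A N]
    [IsScalarTower A (A ⊗[k] B₀) N] [Module.Finite (A ⊗[k] B₀) N] :
    Module.Finite A (N ⧸ (ptIdeal q A • ⊤ : Submodule (A ⊗[k] B₀) N)) := by
  refine finite_of_monic_aeval_smul_eq_zero ((1 : A) ⊗ₜ[k] x : A ⊗[k] B₀)
    (finite_aeval_tmul A hC) (ptPoly A x q) (ptPoly_monic A x q) (fun z => ?_)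
  obtain ⟨n, rfl⟩ := Submodule.Quotient.mk_surjective _ z
  rw [← Submodule.Quotient.mk_smul, Submodule.Quotient.mk_eq_zero]
  exact Submodule.smul_mem_smul (aeval_ptPoly_mem_ptIdeal A x q) Submodule.mem_top

/-- `N₀ ⧸ I_q N₀` is a finite `A`-module. -/
theorem finite_quotient_vanq {x : B₀} {y : B₁} {e : B₁ →ₐ[k] k}
    (hC : IsCurveChart k B₀ B₁ B₀₁ x y e) {m : ℕ} (q : Fin m → (B₀ →ₐ[k] k))
    (G : CurveGD k B₀ B₁ B₀₁ A) : Module.Finite A (G.N₀ ⧸ vanq q G) := by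
  haveI := G.invertible₀
  exact finite_quotient_ptIdeal_smul hC q G.N₀

end Finite

end Fermat.Agent.S25.H791
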