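import Fermat.Agent.S25.H791.ACStage0
import Fermat.Agent.S25.H791.ACPtIdeal
import Fermat.Agent.S25.H310.CechBaseChange

/-!
# S25 / ALGCHARTS, leaf ST1 (helper791): the locus where `H⁰(G(nE₀)) → N₀ / I_q N₀` is onto

`stage1_locus` : exact statement of `coord/S25-ALGCHARTS-skeleton.lean` (squad-lead helper11).
The ideal is the annihilator of the finitely generated `A`-module
`N₀ ⧸ (I_q N₀ + image of H⁰(G(nE₀)))`.

Reusable:
* `evRange x n q G` : the `A`-submodule `I_q N₀ + fst (sec x n G)` of `N₀`; `p1_iff`;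
* `finite_quotient_evRange`;
* `BCEquivs.mem_range_of_mem_sec` (SH3): under `P0` every section of `G'(n)` is an
  `A'`-combination of base-changed sections of `G(n)`;
* `BCEquivs.mem_range_of_mem_vanq` : the same for `I_q N₀`;
* `p1_iff_annihilator_map`.
-/

set_option autoImplicit false
set_option linter.style.haveILetI false
set_option linter.unusedSectionVars false

universe u

open scoped TensorProduct

namespace Fermat.Agent.S25.H791

open Fermat.Agent.S25 Fermat.Agent.S25.H11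

section Core

variable {k : Type u} [Field k]
  {B₀ B₁ B₀₁ : Type u} [CommRing B₀] [CommRing B₁] [CommRing B₀₁]
  [Algebra k B₀] [Algebra k B₁] [Algebra k B₀₁] [Algebra B₀ B₀₁] [Algebra B₁ B₀₁]
  [IsScalarTower k B₀ B₀₁] [IsScalarTower k B₁ B₀₁]
  {x : B₀} {y : B₁} {e : B₁ →ₐ[k] k}

section EvRange

variable {A : Type u} [CommRing A] [Algebra k A]

/-- The `A`-submodule `I_q N₀ + fst (H⁰(G(nE₀)))` of `N₀`: the local sections which agree
modulo `I_q` with a global section of `G(nE₀)`. -/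
def evRange (x : B₀) (n : ℕ) {m : ℕ} (q : Fin m → (B₀ →ₐ[k] k)) (G : CurveGD k B₀ B₁ B₀₁ A) :
    Submodule A G.N₀ :=
  (vanq q G).restrictScalars A ⊔ (sec x n G).map (LinearMap.fst A G.N₀ G.N₁)

theorem mem_evRange_iff {n : ℕ} {m : ℕ} {q : Fin m → (B₀ →ₐ[k] k)}
    {G : CurveGD k B₀ B₁ B₀₁ A} {a : G.N₀} :
    a ∈ evRange x n q G ↔ ∃ s ∈ sec x n G, a - s.1 ∈ vanq q G := by
  rw [evRange, Submodule.mem_sup]
  constructor
  · rintro ⟨v, hv, w, ⟨s, hs, rfl⟩, rfl⟩
    refine ⟨s, hs, ?_⟩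
    have : v + (LinearMap.fst A G.N₀ G.N₁) s - s.1 = v := by simp
    rw [this]
    exact hv
  · rintro ⟨s, hs, hv⟩
    exact ⟨a - s.1, hv, s.1, ⟨s, hs, rfl⟩, by simp⟩

theorem p1_iff {n : ℕ} {m : ℕ} {q : Fin m → (B₀ →ₐ[k] k)} {G : CurveGD k B₀ B₁ B₀₁ A} :
    P1 x n q G ↔ P0 x n G ∧ evRange x n q G = ⊤ := by
  rw [P1, Submodule.eq_top_iff']
  exact and_congr Iff.rfl (forall_congr' fun a => mem_evRange_iff.symm)

/-- `N₀ ⧸ (I_q N₀ + fst H⁰)` is a finite `A`-module. -/
theorem finite_quotient_evRange (hC : IsCurveChart k B₀ B₁ B₀₁ x y e) (n : ℕ) {m : ℕ}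
    (q : Fin m → (B₀ →ₐ[k] k)) (G : CurveGD k B₀ B₁ B₀₁ A) :
    Module.Finite A (G.N₀ ⧸ evRange x n q G) := by
  haveI : Module.Finite A (G.N₀ ⧸ vanq q G) := finite_quotient_vanq hC q G
  haveI : Module.Finite A (G.N₀ ⧸ (vanq q G).restrictScalars A) :=
    Module.Finite.equiv (Submodule.Quotient.restrictScalarsEquiv A (vanq q G)).symm
  have hle : (vanq q G).restrictScalars A ≤ LinearMap.ker (evRange x n q G).mkQ := by
    rw [Submodule.ker_mkQ]
    exact le_sup_left
  refine Module.Finite.of_surjective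
    (((vanq q G).restrictScalars A).liftQ (evRange x n q G).mkQ hle) ?_
  intro z
  obtain ⟨a, rfl⟩ := Submodule.Quotient.mk_surjective _ z
  exact ⟨Submodule.Quotient.mk a, rfl⟩

end EvRange

section BaseChange

variable {A A' : Type u} [CommRing A] [Algebra k A] [CommRing A'] [Algebra k A'] [Algebra A A']
  [IsScalarTower k A A']

/-- If the range of `f` lies in `W`, the range of `f ⊗ A'` lies in the image of `A' ⊗ W`. -/
theorem range_baseChange_le_of_range_le {M N : Type u} [AddCommGroup M] [Module A M]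
    [AddCommGroup N] [Module A N] (f : M →ₗ[A] N) (W : Submodule A N)
    (h : LinearMap.range f ≤ W) :
    LinearMap.range (f.baseChange A') ≤ LinearMap.range (W.subtype.baseChange A') := by
  have hf : f = W.subtype ∘ₗ (f.codRestrict W (fun c => h ⟨c, rfl⟩)) := by
    ext c; rfl
  rintro _ ⟨t, rfl⟩
  refine ⟨(f.codRestrict W (fun c => h ⟨c, rfl⟩)).baseChange A' t, ?_⟩
  rw [← LinearMap.comp_apply, ← LinearMap.baseChange_comp, ← hf]

/-- Right exactness: the kernel of `A' ⊗ N → A' ⊗ (N ⧸ W)` is the image of `A' ⊗ W`. -/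
theorem ker_mkQ_baseChange_eq {N : Type u} [AddCommGroup N] [Module A N] (W : Submodule A N) :
    LinearMap.ker (W.mkQ.baseChange A') = LinearMap.range (W.subtype.baseChange A') := by
  have hex : Function.Exact W.subtype W.mkQ := LinearMap.exact_subtype_mkQ W
  have hex' := lTensor_exact A' hex (Submodule.mkQ_surjective W)
  ext t
  rw [LinearMap.mem_ker, LinearMap.mem_range]
  have h1 : (W.mkQ.baseChange A' : A' ⊗[A] N → A' ⊗[A] (N ⧸ W)) = W.mkQ.lTensor A' :=
    LinearMap.baseChange_eq_ltensor W.mkQ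
  have h2 : (W.subtype.baseChange A' : A' ⊗[A] W → A' ⊗[A] N) = W.subtype.lTensor A' :=
    LinearMap.baseChange_eq_ltensor W.subtype
  rw [h1, h2]
  exact hex' t

namespace BCEquivs

variable {ψ : A →ₐ[k] A'} {G : CurveGD k B₀ B₁ B₀₁ A} {G' : CurveGD k B₀ B₁ B₀₁ A'}
  {bc : GlueDatum.BaseChangeMaps (tensorMapLeft k ψ B₀) (tensorMapLeft k ψ B₁)
      (tensorMapLeft k ψ B₀₁) G G'}

/-- The first component of the comparison isomorphism on cochains. -/
theorem prod_fst (E : BCEquivs ψ bc) (t : A' ⊗[A] (G.N₀ × G.N₁)) :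
    (E.prod t).1 = E.E₀ ((LinearMap.fst A G.N₀ G.N₁).baseChange A' t) := by
  induction t using TensorProduct.induction_on with
  | zero => simp
  | add t u ht hu => simp only [map_add, Prod.fst_add, ht, hu]
  | tmul s p => rw [prod_tmul, LinearMap.baseChange_tmul, E.E₀_tmul]; rfl

/-- Base-changed sections are sections. -/
theorem bc_mem_sec (ψ : A →ₐ[k] A') {G : CurveGD k B₀ B₁ B₀₁ A} {G' : CurveGD k B₀ B₁ B₀₁ A'}
    (bc : GlueDatum.BaseChangeMaps (tensorMapLeft k ψ B₀) (tensorMapLeft k ψ B₁)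
      (tensorMapLeft k ψ B₀₁) G G') (x : B₀) (n : ℕ) {s : G.N₀ × G.N₁} (hs : s ∈ sec x n G) :
    ((bc.b₀ s.1, bc.b₁ s.2) : G'.N₀ × G'.N₁) ∈ sec x n G' := by
  rw [LinearMap.mem_ker, tcech_bc ψ bc x n s.1 s.2]
  have : tcech x n G (s.1, s.2) = 0 := hs
  rw [this, map_zero]

/-- Base change maps send `I_q N₀` into `I_q N₀'`. -/
theorem bc_mem_vanq (ψ : A →ₐ[k] A') {G : CurveGD k B₀ B₁ B₀₁ A} {G' : CurveGD k B₀ B₁ B₀₁ A'}
    (bc : GlueDatum.BaseChangeMaps (tensorMapLeft k ψ B₀) (tensorMapLeft k ψ B₁)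
      (tensorMapLeft k ψ B₀₁) G G') {m : ℕ} (q : Fin m → (B₀ →ₐ[k] k)) {v : G.N₀}
    (hv : v ∈ vanq q G) : bc.b₀ v ∈ vanq q G' := by
  unfold vanq at hv ⊢
  refine Submodule.smul_induction_on hv (fun r hr n _ => ?_) (fun a b ha hb => ?_)
  · rw [bc.b₀.map_smulₛₗ]
    refine Submodule.smul_mem_smul ?_ Submodule.mem_top
    rw [← map_ptIdeal ψ q]
    exact Ideal.mem_map_of_mem _ hr
  · rw [map_add]
    exact Submodule.add_mem _ ha hb

/-- **SH3.** Under `P0` for `G`, every section of `G'(nE₀)` comes from `A' ⊗ H⁰(G(nE₀))`. -/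
theorem mem_range_of_mem_sec (E : BCEquivs ψ bc) (hC : IsCurveChart k B₀ B₁ B₀₁ x y e)
    (n : ℕ) (h0 : P0 x n G) {s' : G'.N₀ × G'.N₁} (hs' : s' ∈ sec x n G') :
    E.prod.symm s' ∈ LinearMap.range ((sec x n G).subtype.baseChange A') := by
  have hker : E.prod.symm s' ∈ LinearMap.ker ((tcech x n G).baseChange A') := by
    rw [LinearMap.mem_ker]
    apply E.E₀₁.injective
    rw [← E.tcech_prod, LinearEquiv.apply_symm_apply, map_zero]
    exact hs'
  have hD := (H310.H0_baseChange_bijective (A' := A') (H250.chartCechOps hC G)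
    (H250.isFGProj_X0 hC G) (H250.r0_injective hC G) n
    (by rw [← tcech_eq_d hC n G]; exact h0)).2
  have hsec : sec x n G = (H250.chartCechOps hC G).H0 n := by
    show LinearMap.ker (tcech x n G) = LinearMap.ker ((H250.chartCechOps hC G).d n)
    rw [tcech_eq_d hC n G]
  rw [hsec, hD, ← tcech_eq_d hC n G]
  exact hker

/-- Every element of `I_q N₀'` comes from `A' ⊗ I_q N₀`. -/
theorem mem_range_of_mem_vanq (E : BCEquivs ψ bc) {m : ℕ} (q : Fin m → (B₀ →ₐ[k] k))
    {v' : G'.N₀} (hv' : v' ∈ vanq q G') :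
    E.E₀.symm v' ∈
      LinearMap.range (((vanq q G).restrictScalars A).subtype.baseChange A') := by
  -- the `A'`-submodule `T` of `N₀'` of elements coming from `A' ⊗ I_q N₀`
  set T : Submodule A' G'.N₀ :=
    (LinearMap.range (((vanq q G).restrictScalars A).subtype.baseChange A')).map
      E.E₀.toLinearMap with hT
  suffices h : v' ∈ T by
    obtain ⟨t, ht, rfl⟩ := h
    rw [LinearEquiv.coe_coe, LinearEquiv.symm_apply_apply]
    exact ht
  -- generators
  have hgen : ∀ (s : A') (v : G.N₀), v ∈ vanq q G → s • bc.b₀ v ∈ T := by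
    intro s v hv
    refine ⟨s ⊗ₜ[A] v, ⟨s ⊗ₜ[A] (⟨v, hv⟩ : (vanq q G).restrictScalars A), ?_⟩, ?_⟩
    · rw [LinearMap.baseChange_tmul]; rfl
    · rw [LinearEquiv.coe_coe, E.E₀_tmul]
  -- `r' • n' ∈ T` for `r'` in the extended ideal
  have key : ∀ r' ∈ (ptIdeal q A).map (tensorMapLeft k ψ B₀), ∀ n' : G'.N₀, r' • n' ∈ T := by
    intro r' hr'
    induction hr' using Submodule.span_induction with
    | mem r' hr' =>
      obtain ⟨i, hi, rfl⟩ := hr'
      intro n'
      obtain ⟨t, rfl⟩ := E.E₀.surjective n'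
      induction t using TensorProduct.induction_on with
      | zero => rw [map_zero, smul_zero]; exact T.zero_mem
      | add t u ht hu => rw [map_add, smul_add]; exact T.add_mem ht hu
      | tmul s n =>
        rw [E.E₀_tmul, smul_comm, ← bc.b₀.map_smulₛₗ]
        exact hgen s _ (Submodule.smul_mem_smul hi Submodule.mem_top)
    | zero => intro n'; rw [zero_smul]; exact T.zero_mem
    | add a b _ _ ha hb => intro n'; rw [add_smul]; exact T.add_mem (ha n') (hb n')
    | smul c a _ ha =>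
      intro n'
      rw [smul_eq_mul, mul_comm, mul_smul]
      exact ha (c • n')
  rw [vanq, ← map_ptIdeal ψ q] at hv'
  exact Submodule.smul_induction_on hv' (fun r hr n _ => key r hr n)
    (fun a b ha hb => T.add_mem ha hb)

/-- Under `P0` for `G`: the evaluation condition for `G'` is the vanishing of
`A' ⊗ (N₀ ⧸ evRange)`. -/
theorem evRange_eq_top_iff (E : BCEquivs ψ bc) (hC : IsCurveChart k B₀ B₁ B₀₁ x y e)
    (n : ℕ) {m : ℕ} (q : Fin m → (B₀ →ₐ[k] k)) (h0 : P0 x n G) :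
    evRange x n q G' = ⊤ ↔ Subsingleton (A' ⊗[A] (G.N₀ ⧸ evRange x n q G)) := by
  set W := evRange x n q G with hW
  have hvW : (vanq q G).restrictScalars A ≤ W := le_sup_left
  have hsW : LinearMap.range ((LinearMap.fst A G.N₀ G.N₁) ∘ₗ (sec x n G).subtype) ≤ W := by
    rintro _ ⟨s, rfl⟩
    exact Submodule.mem_sup_right ⟨s.1, s.2, rfl⟩
  constructor
  · intro htop
    -- every element of `A' ⊗ N₀` comes from `A' ⊗ W`
    have hall : ∀ t : A' ⊗[A] G.N₀, t ∈ LinearMap.range (W.subtype.baseChange A') := by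
      intro t
      have ht : E.E₀ t ∈ evRange x n q G' := by rw [htop]; exact Submodule.mem_top
      obtain ⟨s', hs', hv'⟩ := mem_evRange_iff.mp ht
      have h1 := E.mem_range_of_mem_vanq q hv'
      have h2 := E.mem_range_of_mem_sec hC n h0 hs'
      have h1' : E.E₀.symm (E.E₀ t - s'.1) ∈ LinearMap.range (W.subtype.baseChange A') := by
        have := range_baseChange_le_of_range_le (A' := A')
          ((vanq q G).restrictScalars A).subtype W (by
            rintro _ ⟨v, rfl⟩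
            exact hvW v.2)
        exact this h1
      have h2' : E.E₀.symm s'.1 ∈ LinearMap.range (W.subtype.baseChange A') := by
        obtain ⟨u, hu⟩ := h2
        have h3 : s'.1 = E.E₀ ((LinearMap.fst A G.N₀ G.N₁).baseChange A' (E.prod.symm s')) := by
          rw [← E.prod_fst, LinearEquiv.apply_symm_apply]
        rw [h3, LinearEquiv.symm_apply_apply, ← hu, ← LinearMap.comp_apply,
          ← LinearMap.baseChange_comp]
        exact range_baseChange_le_of_range_le (A' := A') _ W hsW ⟨u, rfl⟩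
      have : t = E.E₀.symm (E.E₀ t - s'.1) + E.E₀.symm s'.1 := by
        rw [← map_add, sub_add_cancel, LinearEquiv.symm_apply_apply]
      rw [this]
      exact Submodule.add_mem _ h1' h2'
    refine ⟨fun a b => ?_⟩
    have hzero : ∀ c : A' ⊗[A] (G.N₀ ⧸ W), c = 0 := by
      intro c
      obtain ⟨t, rfl⟩ := LinearMap.lTensor_surjective A' (Submodule.mkQ_surjective W) c
      have := hall t
      rw [← ker_mkQ_baseChange_eq, LinearMap.mem_ker] at this
      rw [← this]
      exact (congrFun (LinearMap.baseChange_eq_ltensor (A := A') W.mkQ) t).symm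
    rw [hzero a, hzero b]
  · intro hsub
    rw [Submodule.eq_top_iff']
    intro a'
    have hker : E.E₀.symm a' ∈ LinearMap.ker (W.mkQ.baseChange A') := by
      rw [LinearMap.mem_ker]
      exact Subsingleton.elim _ _
    rw [ker_mkQ_baseChange_eq] at hker
    obtain ⟨w, hw⟩ := hker
    have hmem : ∀ w : A' ⊗[A] W, E.E₀ (W.subtype.baseChange A' w) ∈ evRange x n q G' := by
      intro w
      induction w using TensorProduct.induction_on with
      | zero => simp
      | add w₁ w₂ h₁ h₂ => rw [map_add, map_add]; exact Submodule.add_mem _ h₁ h₂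
      | tmul s w =>
        rw [LinearMap.baseChange_tmul, E.E₀_tmul]
        refine Submodule.smul_mem _ s ?_
        obtain ⟨s₀, hs₀, hv⟩ := mem_evRange_iff.mp w.2
        rw [mem_evRange_iff]
        refine ⟨(bc.b₀ s₀.1, bc.b₁ s₀.2), bc_mem_sec ψ bc x n hs₀, ?_⟩
        have := bc_mem_vanq ψ bc q hv
        rwa [map_sub] at this
    have := hmem w
    rwa [hw, LinearEquiv.apply_symm_apply] at this

end BCEquivs

/-- `P1` for a base change `G'` of `G` (with `P0` for `G`), in terms of the annihilator of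
`N₀ ⧸ evRange`. -/
theorem p1_iff_annihilator_map (hC : IsCurveChart k B₀ B₁ B₀₁ x y e) (n : ℕ) {m : ℕ}
    (q : Fin m → (B₀ →ₐ[k] k)) (ψ : A →ₐ[k] A') (hψ : ∀ a, ψ a = algebraMap A A' a)
    {G : CurveGD k B₀ B₁ B₀₁ A} {G' : CurveGD k B₀ B₁ B₀₁ A'} (h : CurveGD.IsBC ψ G G')
    (h0 : P0 x n G) :
    P1 x n q G' ↔
      (Module.annihilator A (G.N₀ ⧸ evRange x n q G)).map (algebraMap A A') = ⊤ := by
  have h0' : P0 x n G' := p0_baseChange n ψ hψ h h0
  obtain ⟨bc⟩ := h
  obtain ⟨E⟩ := exists_bcEquivs ψ hψ bc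
  haveI := finite_quotient_evRange hC n q G
  rw [p1_iff, E.evRange_eq_top_iff hC n q h0, subsingleton_tensorProduct_iff]
  exact and_iff_right h0'

end BaseChange

end Core

section Main

variable {k : Type u} [Field k] [IsAlgClosed k]
  {B₀ B₁ B₀₁ : Type u} [CommRing B₀] [CommRing B₁] [CommRing B₀₁]
  [Algebra k B₀] [Algebra k B₁] [Algebra k B₀₁] [Algebra B₀ B₀₁] [Algebra B₁ B₀₁]
  [IsScalarTower k B₀ B₀₁] [IsScalarTower k B₁ B₀₁]
  {x : B₀} {y : B₁} {e : B₁ →ₐ[k] k}
  {A : Type u} [CommRing A] [Algebra k A]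

/-- **STAGE 1** (exact skeleton statement): given `P0`, the locus where
`H⁰(G(nE₀)) → N₀ / I_q N₀` is onto. -/
theorem stage1_locus (hC : IsCurveChart k B₀ B₁ B₀₁ x y e) (n : ℕ) {m : ℕ}
    (q : Fin m → (B₀ →ₐ[k] k)) (G : CurveGD k B₀ B₁ B₀₁ A) (h0 : P0 x n G) :
    ∃ J : Ideal A, ∀ (A' : Type u) [CommRing A'] [Algebra k A'] (ψ : A →ₐ[k] A')
      (G' : CurveGD k B₀ B₁ B₀₁ A'), CurveGD.IsBC ψ G G' →
        (P1 x n q G' ↔ J.map ψ.toRingHom = ⊤) := by
  refine ⟨Module.annihilator A (G.N₀ ⧸ evRange x n q G), ?_⟩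
  intro A' _ _ ψ G' h
  letI : Algebra A A' := ψ.toRingHom.toAlgebra
  haveI : IsScalarTower k A A' := IsScalarTower.of_algebraMap_eq' (by
    ext c
    exact (ψ.commutes c).symm)
  exact p1_iff_annihilator_map hC n q ψ (fun _ => rfl) h h0

end Main

end Fermat.Agent.S25.H791
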