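import Fermat.Agent.S25.H11.ACLeaves
import Fermat.Agent.S25.H791.ACStage1

/-!
# S25 / ALGCHARTS, leaf PT-BC (helper791): the point conditions are stable under base change

`pointCond_bc` : exact statement of `coord/S25-ALGCHARTS-skeleton.lean` (squad-lead helper11);
`leaf_pointBC : H11.Leaf.PointBC k B₀ B₁ B₀₁`.

Reusable (all for base change maps `bc` of `CurveGD.IsBC ψ G G'`):
* `p1_baseChange` : `P1` is stable under base change;
* `BCEquivs.genModY_bc` : `GenModY` is stable under base change;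
* `BCEquivs.span_singleton_bc` : `R₀ s₀ = J N₀ ⇒ R₀' b₀(s₀) = (J R₀') N₀'`;
* `BCEquivs.mem_span_of_mem_secq` : under `P1` for `G`, `H⁰(G'(nE₀ - Σq))` is the `A'`-span of the
  image of `H⁰(G(nE₀ - Σq))` (right exactness only; no flatness, no rank count);
* `BCEquivs.isGen_bc` : `IsGen` is stable under base change;  `p2_baseChange`.
-/

set_option autoImplicit false
set_option linter.style.haveILetI false
set_option linter.unusedSectionVars false
set_option linter.unusedVariables false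

universe u

open scoped TensorProduct

namespace Fermat.Agent.S25.H791

open Fermat.Agent.S25 Fermat.Agent.S25.H11

section Core

variable {k : Type u} [Field k]
  {B₀ B₁ B₀₁ : Type u} [CommRing B₀] [CommRing B₁] [CommRing B₀₁]
  [Algebra k B₀] [Algebra k B₁] [Algebra k B₀₁] [Algebra B₀ B₀₁] [Algebra B₁ B₀₁]
  [IsScalarTower k B₀ B₀₁] [IsScalarTower k B₁ B₀₁]
  {x : B₀} {y : B₁} {e : B₁ →ₐ[k] k}

variable {A A' : Type u} [CommRing A] [Algebra k A] [CommRing A'] [Algebra k A'] [Algebra A A']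
  [IsScalarTower k A A']

/-- `P1` is stable under base change. -/
theorem p1_baseChange (hC : IsCurveChart k B₀ B₁ B₀₁ x y e) (n : ℕ) {m : ℕ}
    (q : Fin m → (B₀ →ₐ[k] k)) (ψ : A →ₐ[k] A') (hψ : ∀ a, ψ a = algebraMap A A' a)
    {G : CurveGD k B₀ B₁ B₀₁ A} {G' : CurveGD k B₀ B₁ B₀₁ A'} (h : CurveGD.IsBC ψ G G')
    (h1 : P1 x n q G) : P1 x n q G' := by
  rw [p1_iff_annihilator_map hC n q ψ hψ h h1.1]
  have htop : evRange x n q G = ⊤ := (p1_iff.mp h1).2
  have : Module.annihilator A (G.N₀ ⧸ evRange x n q G) = ⊤ := by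
    rw [Ideal.eq_top_iff_one, Module.mem_annihilator]
    intro z
    obtain ⟨a, rfl⟩ := Submodule.Quotient.mk_surjective _ z
    rw [one_smul, Submodule.Quotient.mk_eq_zero, htop]
    exact Submodule.mem_top
  rw [this, Ideal.map_top]

namespace BCEquivs

variable {ψ : A →ₐ[k] A'} {G : CurveGD k B₀ B₁ B₀₁ A} {G' : CurveGD k B₀ B₁ B₀₁ A'}
  {bc : GlueDatum.BaseChangeMaps (tensorMapLeft k ψ B₀) (tensorMapLeft k ψ B₁)
      (tensorMapLeft k ψ B₀₁) G G'}

/-- `b₀` is semilinear over `A → A'`. -/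
theorem b₀_smul (E : BCEquivs ψ bc) (a : A) (n : G.N₀) :
    bc.b₀ (a • n) = algebraMap A A' a • bc.b₀ n := by
  have h1 : E.E₀ ((1 : A') ⊗ₜ[A] (a • n)) = bc.b₀ (a • n) := by rw [E.E₀_tmul, one_smul]
  have h2 : (1 : A') ⊗ₜ[A] (a • n) = (algebraMap A A' a) ⊗ₜ[A] n := by
    rw [TensorProduct.tmul_smul, TensorProduct.smul_tmul', Algebra.smul_def, mul_one]
  rw [← h1, h2, E.E₀_tmul]

/-- `b₁` is semilinear over `A → A'`. -/
theorem b₁_smul (E : BCEquivs ψ bc) (a : A) (n : G.N₁) :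
    bc.b₁ (a • n) = algebraMap A A' a • bc.b₁ n := by
  have h1 : E.E₁ ((1 : A') ⊗ₜ[A] (a • n)) = bc.b₁ (a • n) := by rw [E.E₁_tmul, one_smul]
  have h2 : (1 : A') ⊗ₜ[A] (a • n) = (algebraMap A A' a) ⊗ₜ[A] n := by
    rw [TensorProduct.tmul_smul, TensorProduct.smul_tmul', Algebra.smul_def, mul_one]
  rw [← h1, h2, E.E₁_tmul]

omit [Algebra A A'] [IsScalarTower k A A'] in
/-- `tensorMapLeft` fixes `1 ⊗ y`. -/
theorem tensorMapLeft_yElt (ψ : A →ₐ[k] A') (y : B₁) :
    tensorMapLeft k ψ B₁ (yElt k A y) = yElt k A' y := by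
  simp [tensorMapLeft, yElt]

/-- `GenModY` is stable under base change. -/
theorem genModY_bc (E : BCEquivs ψ bc) (y : B₁) {b : G.N₁} (hb : GenModY y G b) :
    GenModY y G' (bc.b₁ b) := by
  intro c'
  obtain ⟨t, rfl⟩ := E.E₁.surjective c'
  induction t using TensorProduct.induction_on with
  | zero => exact ⟨0, by simp⟩
  | add t u ht hu =>
    obtain ⟨r₁, h₁⟩ := ht
    obtain ⟨r₂, h₂⟩ := hu
    refine ⟨r₁ + r₂, ?_⟩
    have : E.E₁ (t + u) - (r₁ + r₂) • bc.b₁ b =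
        (E.E₁ t - r₁ • bc.b₁ b) + (E.E₁ u - r₂ • bc.b₁ b) := by
      rw [map_add, add_smul]; abel
    rw [this]
    exact Submodule.add_mem _ h₁ h₂
  | tmul s c =>
    obtain ⟨r, hr⟩ := hb c
    refine ⟨algebraMap A' (A' ⊗[k] B₁) s * tensorMapLeft k ψ B₁ r, ?_⟩
    have h1 : E.E₁ (s ⊗ₜ[A] c) -
        (algebraMap A' (A' ⊗[k] B₁) s * tensorMapLeft k ψ B₁ r) • bc.b₁ b =
        algebraMap A' (A' ⊗[k] B₁) s • bc.b₁ (c - r • b) := by
      rw [E.E₁_tmul, map_sub, bc.b₁.map_smulₛₗ, smul_sub, mul_smul]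
      simp only [algebraMap_smul]
    rw [h1]
    refine Submodule.smul_mem _ _ ?_
    refine Submodule.smul_induction_on hr (fun r' hr' n _ => ?_) (fun a b ha hb => ?_)
    · rw [bc.b₁.map_smulₛₗ]
      refine Submodule.smul_mem_smul ?_ Submodule.mem_top
      obtain ⟨c₀, rfl⟩ := Ideal.mem_span_singleton'.mp hr'
      rw [map_mul, tensorMapLeft_yElt]
      exact Ideal.mul_mem_left _ _ (Ideal.subset_span rfl)
    · rw [map_add]
      exact Submodule.add_mem _ ha hb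

/-- Base change of a submodule of the form `J • ⊤` generated by one element. -/
theorem span_singleton_bc (E : BCEquivs ψ bc) {s₀ : G.N₀} {J : Ideal (A ⊗[k] B₀)}
    (h : Submodule.span (A ⊗[k] B₀) {s₀} = J • (⊤ : Submodule (A ⊗[k] B₀) G.N₀)) :
    Submodule.span (A' ⊗[k] B₀) {bc.b₀ s₀} =
      (J.map (tensorMapLeft k ψ B₀)) • (⊤ : Submodule (A' ⊗[k] B₀) G'.N₀) := by
  apply le_antisymm
  · rw [Submodule.span_le, Set.singleton_subset_iff]
    have hs : s₀ ∈ J • (⊤ : Submodule (A ⊗[k] B₀) G.N₀) := by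
      rw [← h]; exact Submodule.mem_span_singleton_self s₀
    refine Submodule.smul_induction_on hs (fun r hr n _ => ?_) (fun a b ha hb => ?_)
    · rw [SetLike.mem_coe, bc.b₀.map_smulₛₗ]
      exact Submodule.smul_mem_smul (Ideal.mem_map_of_mem _ hr) Submodule.mem_top
    · rw [SetLike.mem_coe, map_add]
      exact Submodule.add_mem _ ha hb
  · have key : ∀ r' ∈ J.map (tensorMapLeft k ψ B₀), ∀ n' : G'.N₀,
        r' • n' ∈ Submodule.span (A' ⊗[k] B₀) {bc.b₀ s₀} := by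
      intro r' hr'
      induction hr' using Submodule.span_induction with
      | mem r' hr' =>
        obtain ⟨j, hj, rfl⟩ := hr'
        intro n'
        obtain ⟨t, rfl⟩ := E.E₀.surjective n'
        induction t using TensorProduct.induction_on with
        | zero => rw [map_zero, smul_zero]; exact Submodule.zero_mem _
        | add t u ht hu => rw [map_add, smul_add]; exact Submodule.add_mem _ ht hu
        | tmul s n =>
          rw [E.E₀_tmul, smul_comm, ← bc.b₀.map_smulₛₗ, ← algebraMap_smul (A' ⊗[k] B₀) s]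
          refine Submodule.smul_mem _ _ ?_
          have hjn : j • n ∈ Submodule.span (A ⊗[k] B₀) {s₀} := by
            rw [h]; exact Submodule.smul_mem_smul hj Submodule.mem_top
          obtain ⟨r, hr⟩ := Submodule.mem_span_singleton.mp hjn
          rw [← hr, bc.b₀.map_smulₛₗ]
          exact Submodule.smul_mem _ _ (Submodule.mem_span_singleton_self _)
      | zero => intro n'; rw [zero_smul]; exact Submodule.zero_mem _
      | add a b _ _ ha hb => intro n'; rw [add_smul]; exact Submodule.add_mem _ (ha n') (hb n')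
      | smul c a _ ha =>
        intro n'
        rw [smul_eq_mul, mul_comm, mul_smul]
        exact ha (c • n')
    intro v hv
    exact Submodule.smul_induction_on hv (fun r hr n _ => key r hr n)
      (fun a b ha hb => Submodule.add_mem _ ha hb)

/-- Under `P1` for `G`: every section of `G'(nE₀)` vanishing on `Σ q` is an `A'`-combination of
base-changed sections of `G(nE₀)` vanishing on `Σ q` (right exactness of `⊗`). -/
theorem mem_span_of_mem_secq (E : BCEquivs ψ bc) (hC : IsCurveChart k B₀ B₁ B₀₁ x y e)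
    (n : ℕ) {m : ℕ} (q : Fin m → (B₀ →ₐ[k] k)) (h1 : P1 x n q G)
    {t' : G'.N₀ × G'.N₁} (ht' : t' ∈ secq x n q G') :
    t' ∈ Submodule.span A'
      ((fun s : G.N₀ × G.N₁ => ((bc.b₀ s.1, bc.b₁ s.2) : G'.N₀ × G'.N₁)) '' (secq x n q G)) := by
  -- the evaluation map `sec → N₀ ⧸ I_q N₀`
  set V : Submodule A G.N₀ := (vanq q G).restrictScalars A with hV
  set ev : sec x n G →ₗ[A] G.N₀ ⧸ V :=
    V.mkQ ∘ₗ (LinearMap.fst A G.N₀ G.N₁) ∘ₗ (sec x n G).subtype with hev
  have hevsurj : Function.Surjective ev := by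
    intro z
    obtain ⟨a, rfl⟩ := Submodule.Quotient.mk_surjective _ z
    obtain ⟨s, hs, hv⟩ := h1.2 a
    refine ⟨⟨s, hs⟩, ?_⟩
    show Submodule.Quotient.mk s.1 = Submodule.Quotient.mk a
    rw [Submodule.Quotient.eq]
    have : s.1 - a = -(a - s.1) := by abel
    rw [this]
    exact V.neg_mem hv
  obtain ⟨u, hu⟩ := E.mem_range_of_mem_sec hC n h1.1 ht'.1
  -- `u` is killed by `ev ⊗ A'`
  have hu0 : ev.baseChange A' u = 0 := by
    have h2 : ev.baseChange A' u = V.mkQ.baseChange A'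
        ((LinearMap.fst A G.N₀ G.N₁).baseChange A' ((sec x n G).subtype.baseChange A' u)) := by
      rw [hev, LinearMap.baseChange_comp, LinearMap.baseChange_comp]
      rfl
    have hv' : t'.1 ∈ vanq q G' := ht'.2
    have h4 : t'.1 = E.E₀ ((LinearMap.fst A G.N₀ G.N₁).baseChange A' (E.prod.symm t')) := by
      rw [← E.prod_fst, LinearEquiv.apply_symm_apply]
    rw [h4] at hv'
    have h3 := E.mem_range_of_mem_vanq q hv'
    rw [LinearEquiv.symm_apply_apply] at h3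
    rw [h2, hu, ← LinearMap.mem_ker, ker_mkQ_baseChange_eq]
    exact h3
  -- right exactness
  have hex : Function.Exact (LinearMap.ker ev).subtype ev := LinearMap.exact_subtype_ker_map ev
  have hex' := lTensor_exact (R := A) (M := LinearMap.ker ev) (N := sec x n G)
    (P := G.N₀ ⧸ V) (f := (LinearMap.ker ev).subtype) (g := ev) A' hex hevsurj
  have hu1 : ev.lTensor A' u = 0 := by
    rw [← hu0]
    exact (congrFun (LinearMap.baseChange_eq_ltensor (A := A') ev) u).symm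
  obtain ⟨w, hw⟩ := (hex' u).mp hu1
  -- conclude by induction on `w`
  have hfin : ∀ w : A' ⊗[A] (LinearMap.ker ev),
      E.prod ((sec x n G).subtype.baseChange A' ((LinearMap.ker ev).subtype.lTensor A' w)) ∈
        Submodule.span A'
          ((fun s : G.N₀ × G.N₁ => ((bc.b₀ s.1, bc.b₁ s.2) : G'.N₀ × G'.N₁)) ''
            (secq x n q G)) := by
    intro w
    induction w using TensorProduct.induction_on with
    | zero => simp
    | add w₁ w₂ h₁ h₂ =>
      rw [map_add, map_add, map_add]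
      exact Submodule.add_mem _ h₁ h₂
    | tmul a w =>
      rw [LinearMap.lTensor_tmul, LinearMap.baseChange_tmul, E.prod_tmul]
      have hsm : ((a • bc.b₀ (w.1 : G.N₀ × G.N₁).1, a • bc.b₁ (w.1 : G.N₀ × G.N₁).2) :
          G'.N₀ × G'.N₁) =
          a • ((bc.b₀ (w.1 : G.N₀ × G.N₁).1, bc.b₁ (w.1 : G.N₀ × G.N₁).2) :
            G'.N₀ × G'.N₁) := rfl
      show ((a • bc.b₀ (w.1 : G.N₀ × G.N₁).1, a • bc.b₁ (w.1 : G.N₀ × G.N₁).2) :
          G'.N₀ × G'.N₁) ∈ _
      rw [hsm]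
      refine Submodule.smul_mem _ a (Submodule.subset_span ⟨(w.1 : G.N₀ × G.N₁), ?_, rfl⟩)
      refine ⟨w.1.2, ?_⟩
      have hw0 : ev w.1 = 0 := w.2
      have hw1 : (Submodule.Quotient.mk (w.1 : G.N₀ × G.N₁).1 : G.N₀ ⧸ V) = 0 := hw0
      rw [Submodule.Quotient.mk_eq_zero] at hw1
      exact hw1
  have := hfin w
  rw [hw, hu, LinearEquiv.apply_symm_apply] at this
  exact this

/-- `IsGen` is stable under base change (given `P1` for `G`). -/
theorem isGen_bc (E : BCEquivs ψ bc) (hC : IsCurveChart k B₀ B₁ B₀₁ x y e)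
    (n : ℕ) {m : ℕ} (q : Fin m → (B₀ →ₐ[k] k)) (h1 : P1 x n q G)
    {s : G.N₀ × G.N₁} (hs : IsGen x y n q G s) :
    IsGen x y n q G' ((bc.b₀ s.1, bc.b₁ s.2) : G'.N₀ × G'.N₁) where
  mem := ⟨bc_mem_sec ψ bc x n hs.mem.1, bc_mem_vanq ψ bc q hs.mem.2⟩
  gen := E.genModY_bc y hs.gen
  span := by
    intro t' ht'
    have h := E.mem_span_of_mem_secq hC n q h1 ht'
    refine Submodule.span_induction (p := fun t' _ => ∃ a : A',
      t' = a • ((bc.b₀ s.1, bc.b₁ s.2) : G'.N₀ × G'.N₁)) ?_ ?_ ?_ ?_ h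
    · rintro _ ⟨t, ht, rfl⟩
      obtain ⟨a, rfl⟩ := hs.span t ht
      refine ⟨algebraMap A A' a, ?_⟩
      show ((bc.b₀ (a • s.1), bc.b₁ (a • s.2)) : G'.N₀ × G'.N₁) = _
      rw [E.b₀_smul, E.b₁_smul]
      rfl
    · exact ⟨0, by rw [zero_smul]⟩
    · rintro _ _ _ _ ⟨a, rfl⟩ ⟨b, rfl⟩
      exact ⟨a + b, by rw [add_smul]⟩
    · rintro c _ _ ⟨a, rfl⟩
      exact ⟨c * a, by rw [mul_smul]⟩

end BCEquivs

/-- `P2` is stable under base change. -/
theorem p2_baseChange (hC : IsCurveChart k B₀ B₁ B₀₁ x y e) (n : ℕ) {m : ℕ}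
    (q : Fin m → (B₀ →ₐ[k] k)) (ψ : A →ₐ[k] A') (hψ : ∀ a, ψ a = algebraMap A A' a)
    {G : CurveGD k B₀ B₁ B₀₁ A} {G' : CurveGD k B₀ B₁ B₀₁ A'} (h : CurveGD.IsBC ψ G G')
    (h2 : P2 x y n q G) : P2 x y n q G' := by
  refine ⟨p1_baseChange hC n q ψ hψ h h2.1, ?_⟩
  obtain ⟨bc⟩ := h
  obtain ⟨E⟩ := exists_bcEquivs ψ hψ bc
  obtain ⟨s, hs⟩ := h2.2
  exact ⟨_, E.isGen_bc hC n q h2.1 hs⟩

omit [Algebra A A'] [IsScalarTower k A A'] in
/-- Composition of the base change maps of ideals. -/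
theorem map_bc_comp {R : Type u} [CommRing R] [Algebra k R] (φ₀ : R →ₐ[k] A) (ψ : A →ₐ[k] A')
    (I : Ideal (R ⊗[k] B₀)) :
    (I.map (H491.bc B₀ φ₀)).map (tensorMapLeft k ψ B₀) = I.map (H491.bc B₀ (ψ.comp φ₀)) := by
  show Ideal.map (tensorMapLeft k ψ B₀) (Ideal.map (H491.bc B₀ φ₀).toRingHom I) =
    Ideal.map (H491.bc B₀ (ψ.comp φ₀)).toRingHom I
  rw [Ideal.map_map]
  congr 1
  apply RingHom.ext
  intro z
  induction z using TensorProduct.induction_on with
  | zero => simp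
  | add z w hz hw => simp only [map_add, hz, hw]
  | tmul a b => simp [tensorMapLeft]

/-- **PT-BC**, with an algebra structure `A → A'`. -/
theorem pointCond_bc_aux (hC : IsCurveChart k B₀ B₁ B₀₁ x y e) (i : ChartIndex k B₀)
    {G : CurveGD k B₀ B₁ B₀₁ A} {G' : CurveGD k B₀ B₁ B₀₁ A'}
    (ψ : A →ₐ[k] A') (hψ : ∀ a, ψ a = algebraMap A A' a) (hbc : CurveGD.IsBC ψ G G')
    {φ₀ : H491.Rβ k i.β →ₐ[k] A} (h : PointCond x y i G φ₀) :
    PointCond x y i G' (ψ.comp φ₀) := by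
  have hp1 := p1_baseChange hC i.n i.q ψ hψ hbc h.p1
  obtain ⟨bc⟩ := hbc
  obtain ⟨E⟩ := exists_bcEquivs ψ hψ bc
  obtain ⟨s, hs, hspan⟩ := h.sect
  refine ⟨hp1, ⟨_, E.isGen_bc hC i.n i.q h.p1 hs, ?_⟩, ?_⟩
  · rw [E.span_singleton_bc hspan, Ideal.map_mul, map_ptIdeal, map_bc_comp]
  · exact h.unit.map ψ

end Core

section Main

variable {k : Type u} [Field k] [IsAlgClosed k]
  {B₀ B₁ B₀₁ : Type u} [CommRing B₀] [CommRing B₁] [CommRing B₀₁]
  [Algebra k B₀] [Algebra k B₁] [Algebra k B₀₁] [Algebra B₀ B₀₁] [Algebra B₁ B₀₁]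
  [IsScalarTower k B₀ B₀₁] [IsScalarTower k B₁ B₀₁]
  {x : B₀} {y : B₁} {e : B₁ →ₐ[k] k}
  {A A' : Type u} [CommRing A] [Algebra k A] [CommRing A'] [Algebra k A']

/-- **PT-BC** (exact skeleton statement): the point conditions are compatible with base
change, with Hilbert coordinates `ψ ∘ φ₀`. -/
theorem pointCond_bc (hC : IsCurveChart k B₀ B₁ B₀₁ x y e) (i : ChartIndex k B₀)
    (hnum : i.Numeric B₀₁ y) {G : CurveGD k B₀ B₁ B₀₁ A} {G' : CurveGD k B₀ B₁ B₀₁ A'}
    (ψ : A →ₐ[k] A') (hbc : CurveGD.IsBC ψ G G') (hrig : G.Rigidifiable e) (hdeg : G.Deg0)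
    {φ₀ : H491.Rβ k i.β →ₐ[k] A} (h : PointCond x y i G φ₀) :
    PointCond x y i G' (ψ.comp φ₀) := by
  letI : Algebra A A' := ψ.toRingHom.toAlgebra
  haveI : IsScalarTower k A A' := IsScalarTower.of_algebraMap_eq' (by
    ext c
    exact (ψ.commutes c).symm)
  exact pointCond_bc_aux hC i ψ (fun _ => rfl) hbc h

/-- Leaf `PointBC` of ALGCHARTS. -/
theorem leaf_pointBC : H11.Leaf.PointBC k B₀ B₁ B₀₁ :=
  fun _ _ _ hC i hnum _ _ _ _ _ _ _ _ ψ hbc hrig hdeg _ h => pointCond_bc hC i hnum ψ hbc hrig hdeg h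

end Main

end Fermat.Agent.S25.H791
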