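import Fermat.Agent.S25.H11.ACLeaves
import Fermat.Agent.S25.H791.ACStage1

/-!
# S25 / ALGCHARTS (helper791): the leaves `Stage0` and `Stage1` in `H11.Leaf` form
-/

set_option autoImplicit false

universe u

namespace Fermat.Agent.S25.H791

open Fermat.Agent.S25

variable {k : Type u} [Field k] [IsAlgClosed k]
  {B₀ B₁ B₀₁ : Type u} [CommRing B₀] [CommRing B₁] [CommRing B₀₁]
  [Algebra k B₀] [Algebra k B₁] [Algebra k B₀₁] [Algebra B₀ B₀₁] [Algebra B₁ B₀₁]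
  [IsScalarTower k B₀ B₀₁] [IsScalarTower k B₁ B₀₁]

/-- Leaf `Stage0` of ALGCHARTS. -/
theorem leaf_stage0 : H11.Leaf.Stage0 k B₀ B₁ B₀₁ :=
  fun _ _ _ hC n _ _ _ G => stage0_locus hC n G

/-- Leaf `Stage1` of ALGCHARTS. -/
theorem leaf_stage1 : H11.Leaf.Stage1 k B₀ B₁ B₀₁ :=
  fun _ _ _ hC n _ q _ _ _ G h0 => stage1_locus hC n q G h0

end Fermat.Agent.S25.H791
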