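import Mathlib

/-!
# S25 / ALGCHARTS, leaf C6 (core linear algebra): generic choice of points

Let `V` be a `K`-vector space of dimension `m + 1` (think: `V = H⁰(G(n))`), let `ev q : V → K`
(`q : Q`, `Q` infinite) be "evaluation at the point `q`" such that every nonzero `v` vanishes at
only finitely many points, and let `H j` (`j` in a finite type) be finitely many proper subspaces
(think: sections vanishing at a point of `E₀`).  Then there are `m` distinct points
`q 0, …, q (m-1)`, outside any given finite set, such that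

* the sections vanishing at all `q i` form a line `K ∙ s`,
* `s` lies in none of the `H j`,
* the evaluation map `V → K^m` is surjective.

Main statements: `exists_points_line` (functionals), `exists_points_line_of_finrank_eq_one`
(evaluation maps with values in one-dimensional spaces `L q`).
-/

set_option autoImplicit false

namespace Fermat.Agent.S25.H791

open Module

section

variable {K : Type*} [Field K] {V : Type*} [AddCommGroup V] [Module K V]

/-- Cutting a subspace with the kernel of a functional drops the dimension by at most one. -/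
theorem finrank_le_finrank_inf_ker_add_one [FiniteDimensional K V] (W : Submodule K V)
    (φ : V →ₗ[K] K) : finrank K W ≤ finrank K ↥(W ⊓ LinearMap.ker φ) + 1 := by
  by_cases h : W ≤ LinearMap.ker φ
  · rw [inf_eq_left.mpr h]; omega
  · obtain ⟨w, hwW, hw⟩ := Set.not_subset.mp h
    have hw' : φ w ≠ 0 := hw
    have hsup : W ≤ (W ⊓ LinearMap.ker φ) ⊔ K ∙ w := by
      intro v hv
      have hdec : v = (v - (φ v / φ w) • w) + (φ v / φ w) • w := by abel
      rw [hdec]
      refine Submodule.add_mem_sup ⟨W.sub_mem hv (W.smul_mem _ hwW), ?_⟩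
        (Submodule.smul_mem _ _ (Submodule.mem_span_singleton_self w))
      simp only [SetLike.mem_coe, LinearMap.mem_ker, map_sub, map_smul, smul_eq_mul]
      field_simp
      ring
    calc finrank K W ≤ finrank K ↥((W ⊓ LinearMap.ker φ) ⊔ K ∙ w) :=
          Submodule.finrank_mono hsup
      _ ≤ finrank K ↥(W ⊓ LinearMap.ker φ) + finrank K ↥(K ∙ w) :=
          Submodule.finrank_add_le_finrank_add_finrank _ _
      _ ≤ finrank K ↥(W ⊓ LinearMap.ker φ) + 1 := by
          have hw0 : w ≠ 0 := fun h0 => hw' (by rw [h0, map_zero])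
          rw [finrank_span_singleton hw0]

/-- Cutting a subspace with the kernel of a functional which is nonzero on it drops the
dimension by exactly one. -/
theorem finrank_inf_ker_add_one [FiniteDimensional K V] (W : Submodule K V)
    (φ : V →ₗ[K] K) (h : ¬ W ≤ LinearMap.ker φ) :
    finrank K ↥(W ⊓ LinearMap.ker φ) + 1 = finrank K W := by
  refine le_antisymm ?_ (finrank_le_finrank_inf_ker_add_one W φ)
  have hlt : W ⊓ LinearMap.ker φ < W := lt_of_le_of_ne inf_le_left (fun e => h (inf_eq_left.mp e))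
  exact Nat.succ_le_of_lt (Submodule.finrank_lt_finrank_of_lt hlt)

end

section

variable {K : Type*} [Field K] {V : Type*} [AddCommGroup V] [Module K V]
  [FiniteDimensional K V] {Q : Type*} [Infinite Q] (ev : Q → V →ₗ[K] K)
  {t : Type*} [Finite t] (H : t → Submodule K V)

omit [Infinite Q] in
/-- The set of points `q` such that `W ∩ ker (ev q)` falls into the proper subspace `H` is
finite (if `dim W ≥ 2`). -/
theorem finite_setOf_inf_ker_le (hev : ∀ v : V, v ≠ 0 → {q | ev q v = 0}.Finite)
    (W H : Submodule K V) (hW : 2 ≤ finrank K W) (hWH : ¬ W ≤ H) :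
    {q | W ⊓ LinearMap.ker (ev q) ≤ H}.Finite := by
  by_cases hbot : W ⊓ H = ⊥
  · -- no such point
    convert Set.finite_empty
    ext q
    simp only [Set.mem_ofPred_eq, Set.mem_empty_iff_false, iff_false]
    intro hq
    have hle : W ⊓ LinearMap.ker (ev q) ≤ W ⊓ H := le_inf inf_le_left hq
    rw [hbot, le_bot_iff] at hle
    have h1 := finrank_le_finrank_inf_ker_add_one W (ev q)
    rw [hle, finrank_bot] at h1
    omega
  · obtain ⟨v, hv, hv0⟩ := (Submodule.ne_bot_iff _).mp hbot
    refine (hev v hv0).subset ?_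
    intro q hq
    simp only [Set.mem_ofPred_eq] at hq ⊢
    by_contra hne
    apply hWH
    intro w hw
    have hdec : w = (w - (ev q w / ev q v) • v) + (ev q w / ev q v) • v := by abel
    rw [hdec]
    refine H.add_mem (hq ⟨W.sub_mem hw (W.smul_mem _ hv.1), ?_⟩) (H.smul_mem _ hv.2)
    simp only [SetLike.mem_coe, LinearMap.mem_ker, map_sub, map_smul, smul_eq_mul]
    field_simp
    ring

/-- Inductive core of `exists_points_line`, for a subspace `W` of dimension `m + 1`. -/
theorem exists_points_line_aux (hev : ∀ v : V, v ≠ 0 → {q | ev q v = 0}.Finite) :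
    ∀ (m : ℕ) (W : Submodule K V) (F : Set Q), F.Finite → finrank K W = m + 1 →
      (∀ j, ¬ W ≤ H j) →
      ∃ q : Fin m → Q, Function.Injective q ∧ (∀ i, q i ∉ F) ∧
        ∃ s : V, s ≠ 0 ∧ (∀ v : V, (v ∈ W ∧ ∀ i, ev (q i) v = 0) ↔ v ∈ K ∙ s) ∧
          ∀ j, s ∉ H j := by
  intro m
  induction m with
  | zero =>
    intro W F _ hdim hH
    obtain ⟨s, hsW, hs0, hs⟩ : ∃ s ∈ W, s ≠ 0 ∧ ∀ w ∈ W, ∃ c : K, c • s = w := by
      obtain ⟨⟨s, hsW⟩, hs0, hs⟩ := finrank_eq_one_iff'.mp (by simpa using hdim)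
      refine ⟨s, hsW, fun h => hs0 (Subtype.ext h), fun w hw => ?_⟩
      obtain ⟨c, hc⟩ := hs ⟨w, hw⟩
      exact ⟨c, congrArg Subtype.val hc⟩
    have hWs : ∀ v : V, v ∈ W ↔ v ∈ K ∙ s := by
      intro v
      rw [Submodule.mem_span_singleton]
      exact ⟨hs v, fun ⟨c, hc⟩ => hc ▸ W.smul_mem c hsW⟩
    refine ⟨Fin.elim0, fun i => i.elim0, fun i => i.elim0, s, hs0, fun v => ?_, fun j hj => ?_⟩
    · rw [← hWs]
      exact ⟨fun h => h.1, fun h => ⟨h, fun i => i.elim0⟩⟩
    · apply hH j
      intro w hw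
      obtain ⟨c, rfl⟩ := hs w hw
      exact (H j).smul_mem c hj
  | succ m ih =>
    intro W F hF hdim hH
    -- the bad points
    have hW0 : ∃ v ∈ W, v ≠ 0 := by
      have : W ≠ ⊥ := by
        intro h
        rw [h, finrank_bot] at hdim
        omega
      exact (Submodule.ne_bot_iff _).mp this
    obtain ⟨v₀, hv₀W, hv₀⟩ := hW0
    have hB0 : {q | W ≤ LinearMap.ker (ev q)}.Finite :=
      (hev v₀ hv₀).subset (fun q hq => hq hv₀W)
    have hBj : ∀ j, {q | W ⊓ LinearMap.ker (ev q) ≤ H j}.Finite := fun j =>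
      finite_setOf_inf_ker_le ev hev W (H j) (by omega) (hH j)
    have hbad : (F ∪ {q | W ≤ LinearMap.ker (ev q)} ∪
        ⋃ j, {q | W ⊓ LinearMap.ker (ev q) ≤ H j}).Finite :=
      (hF.union hB0).union (Set.finite_iUnion hBj)
    obtain ⟨q₀, hq₀⟩ := hbad.exists_notMem
    simp only [Set.mem_union, Set.mem_ofPred_eq, Set.mem_iUnion, not_or, not_exists] at hq₀
    obtain ⟨⟨hq₀F, hq₀W⟩, hq₀H⟩ := hq₀
    have hdim' : finrank K ↥(W ⊓ LinearMap.ker (ev q₀)) = m + 1 := by
      have := finrank_inf_ker_add_one W (ev q₀) hq₀W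
      omega
    obtain ⟨q, hqinj, hqF, s, hs0, hs, hsH⟩ :=
      ih (W ⊓ LinearMap.ker (ev q₀)) (F ∪ {q₀}) (hF.union (Set.finite_singleton q₀)) hdim' hq₀H
    refine ⟨Fin.cons q₀ q, ?_, ?_, s, hs0, fun v => ?_, hsH⟩
    · rw [Fin.cons_injective_iff]
      refine ⟨?_, hqinj⟩
      rintro ⟨i, hi⟩
      exact hqF i (Or.inr (by simpa using hi))
    · intro i
      refine Fin.cases ?_ (fun i => ?_) i
      · simpa using hq₀F
      · simpa using fun h => hqF i (Or.inl h)
    · rw [← hs v, Fin.forall_fin_succ]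
      simp only [Fin.cons_zero, Fin.cons_succ, Submodule.mem_inf, LinearMap.mem_ker]
      tauto

/-- **C6, core.** Generic choice of points: see the module docstring. -/
theorem exists_points_line (hev : ∀ v : V, v ≠ 0 → {q | ev q v = 0}.Finite)
    (hH : ∀ j, H j ≠ ⊤) (m : ℕ) (hdim : finrank K V = m + 1) (F : Set Q) (hF : F.Finite) :
    ∃ q : Fin m → Q, Function.Injective q ∧ (∀ i, q i ∉ F) ∧
      ∃ s : V, s ≠ 0 ∧ (∀ v : V, (∀ i, ev (q i) v = 0) ↔ v ∈ K ∙ s) ∧ (∀ j, s ∉ H j) ∧
        Function.Surjective (LinearMap.pi fun i => ev (q i)) := by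
  obtain ⟨q, hqinj, hqF, s, hs0, hs, hsH⟩ :=
    exists_points_line_aux ev H hev m ⊤ F hF (by rw [finrank_top]; exact hdim)
      (fun j h => hH j (top_le_iff.mp h))
  have hs' : ∀ v : V, (∀ i, ev (q i) v = 0) ↔ v ∈ K ∙ s := fun v => by
    rw [← hs v]; simp
  refine ⟨q, hqinj, hqF, s, hs0, hs', hsH, ?_⟩
  -- surjectivity by rank-nullity
  set Φ : V →ₗ[K] (Fin m → K) := LinearMap.pi fun i => ev (q i) with hΦ
  have hker : LinearMap.ker Φ = K ∙ s := by
    ext v
    rw [← hs' v, LinearMap.mem_ker, hΦ]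
    constructor
    · intro h i
      simpa using congrFun h i
    · intro h
      ext i
      simpa using h i
  have hrk := LinearMap.finrank_range_add_finrank_ker Φ
  rw [hker, finrank_span_singleton hs0, hdim] at hrk
  rw [← LinearMap.range_eq_top]
  apply Submodule.eq_top_of_finrank_eq
  rw [finrank_fin_fun]
  omega

end

section

variable {K : Type*} [Field K] {V : Type*} [AddCommGroup V] [Module K V]
  [FiniteDimensional K V] {Q : Type*} [Infinite Q]
  {L : Q → Type*} [∀ q, AddCommGroup (L q)] [∀ q, Module K (L q)]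
  (ev : ∀ q, V →ₗ[K] L q) {t : Type*} [Finite t] (H : t → Submodule K V)

/-- **C6, core**, for evaluation maps with values in one-dimensional spaces (fibres of an
invertible module at the points). -/
theorem exists_points_line_of_finrank_eq_one (hL : ∀ q, finrank K (L q) = 1)
    (hev : ∀ v : V, v ≠ 0 → {q | ev q v = 0}.Finite)
    (hH : ∀ j, H j ≠ ⊤) (m : ℕ) (hdim : finrank K V = m + 1) (F : Set Q) (hF : F.Finite) :
    ∃ q : Fin m → Q, Function.Injective q ∧ (∀ i, q i ∉ F) ∧
      ∃ s : V, s ≠ 0 ∧ (∀ v : V, (∀ i, ev (q i) v = 0) ↔ v ∈ K ∙ s) ∧ (∀ j, s ∉ H j) ∧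
        Function.Surjective (fun (v : V) (i : Fin m) => ev (q i) v) := by
  have hfd : ∀ q, FiniteDimensional K (L q) := fun q =>
    Module.finite_of_finrank_pos (by rw [hL q]; exact Nat.one_pos)
  have he : ∀ q, Nonempty (L q ≃ₗ[K] K) := fun q =>
    haveI := hfd q
    FiniteDimensional.nonempty_linearEquiv_of_finrank_eq (by rw [hL q, finrank_self])
  choose e _ using fun q => (⟨(he q).some, trivial⟩ : ∃ _ : L q ≃ₗ[K] K, True)
  obtain ⟨q, hqinj, hqF, s, hs0, hs, hsH, hsurj⟩ :=
    exists_points_line (fun q => (e q).toLinearMap ∘ₗ ev q)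
      H (fun v hv => by simpa using hev v hv) hH m hdim F hF
  refine ⟨q, hqinj, hqF, s, hs0, fun v => ?_, hsH, fun w => ?_⟩
  · rw [← hs v]
    simp
  · obtain ⟨v, hv⟩ := hsurj (fun i => e (q i) (w i))
    refine ⟨v, funext fun i => (e (q i)).injective ?_⟩
    simpa using congrFun hv i

end

end Fermat.Agent.S25.H791
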