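import Mathlib

/-!
# S25 / ALGCHARTS helper (helper791): vanishing and surjectivity loci under base change

For a finitely generated `A`-module `M` and an `A`-algebra `A'`:
`A' ⊗[A] M = 0  ↔  (Ann_A M) A' = A'`.
For a linear map `f : E → F` with `F` finitely generated:
`f.baseChange A'` is surjective `↔ (Ann_A (F ⧸ range f)) A' = A'`.

These give the ideals `I i` of the `locus` field of `AlgChartFamily` ("openness via supports
of finitely generated modules").
-/

set_option autoImplicit false

open TensorProduct

namespace Fermat.Agent.S25.H791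

universe u v w

section Vanishing

variable {A : Type u} [CommRing A] (M : Type v) [AddCommGroup M] [Module A M]
  (A' : Type w) [CommRing A'] [Algebra A A']

/-- If the annihilator of `M` generates the unit ideal of `A'`, then `A' ⊗[A] M = 0`
(no finiteness needed). -/
theorem subsingleton_tensorProduct_of_annihilator_map_eq_top
    (h : (Module.annihilator A M).map (algebraMap A A') = ⊤) : Subsingleton (A' ⊗[A] M) := by
  have h1 : (1 : A') ∈ (Module.annihilator A M).map (algebraMap A A') := by
    rw [h]; exact Submodule.mem_top
  -- every element of the ideal generated by the annihilator kills `A' ⊗ M`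
  have key : ∀ c ∈ (Module.annihilator A M).map (algebraMap A A'),
      ∀ z : A' ⊗[A] M, c • z = 0 := by
    intro c hc
    refine Submodule.span_induction (p := fun c _ => ∀ z : A' ⊗[A] M, c • z = 0)
      ?_ ?_ ?_ ?_ hc
    · rintro _ ⟨a, ha, rfl⟩ z
      induction z using TensorProduct.induction_on with
      | zero => simp
      | tmul b m =>
        rw [TensorProduct.smul_tmul', smul_eq_mul, ← Algebra.smul_def,
          TensorProduct.smul_tmul, Module.mem_annihilator.mp ha m, TensorProduct.tmul_zero]
      | add z w hz hw => rw [smul_add, hz, hw, add_zero]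
    · intro z; simp
    · intro c c' _ _ hc hc' z
      rw [add_smul, hc z, hc' z, add_zero]
    · intro r c _ hc z
      rw [smul_eq_mul, mul_smul, hc z, smul_zero]
  refine ⟨fun z w => ?_⟩
  rw [← one_smul A' z, ← one_smul A' w, key 1 h1 z, key 1 h1 w]

variable [Module.Finite A M]

/-- For a finitely generated module, `A' ⊗[A] M = 0` forces the annihilator of `M` to generate
the unit ideal of `A'`. -/
theorem annihilator_map_eq_top_of_subsingleton_tensorProduct
    (h : Subsingleton (A' ⊗[A] M)) : (Module.annihilator A M).map (algebraMap A A') = ⊤ := by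
  by_contra hne
  obtain ⟨m', hm', hle⟩ := Ideal.exists_le_maximal _ hne
  -- the prime `p` of `A` below `m'`
  let p : PrimeSpectrum A := ⟨m'.comap (algebraMap A A'), inferInstance⟩
  have hp : Module.annihilator A M ≤ p.asIdeal := fun a ha =>
    Ideal.mem_comap.mpr (hle (Ideal.mem_map_of_mem _ ha))
  have hsupp : p ∈ Module.support A M := by
    rw [Module.support_eq_zeroLocus]
    exact hp
  rw [Module.mem_support_iff_nontrivial_residueField_tensorProduct] at hsupp
  -- the residue field `κ' = A' / m'` is an algebra over `κ(p)`
  let κ' := A' ⧸ m'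
  let _ : Field κ' := Ideal.Quotient.field m'
  -- `κ' ⊗[A] M` is a quotient of `A' ⊗[A] M`, hence zero
  have h0 : Subsingleton (κ' ⊗[A] M) := by
    have hsurj : Function.Surjective
        (LinearMap.rTensor M ((Ideal.Quotient.mkₐ A m').toLinearMap)) :=
      LinearMap.rTensor_surjective M (Ideal.Quotient.mkₐ_surjective A m')
    exact hsurj.subsingleton
  -- ring hom `κ(p) → κ'`
  let φ : p.asIdeal.ResidueField →+* κ' :=
    Ideal.ResidueField.lift p.asIdeal (algebraMap A κ') (by
      intro a ha
      rw [RingHom.mem_ker, IsScalarTower.algebraMap_apply A A' κ',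
        Ideal.Quotient.algebraMap_eq, Ideal.Quotient.eq_zero_iff_mem]
      exact ha)
      (by
        intro a ha
        apply IsUnit.mk0
        intro h0
        apply ha
        rw [IsScalarTower.algebraMap_apply A A' κ',
          Ideal.Quotient.algebraMap_eq, Ideal.Quotient.eq_zero_iff_mem] at h0
        exact h0)
  let _ : Algebra p.asIdeal.ResidueField κ' := φ.toAlgebra
  have : IsScalarTower A p.asIdeal.ResidueField κ' := IsScalarTower.of_algebraMap_eq' (by
    ext a
    simp only [RingHom.algebraMap_toAlgebra, φ, RingHom.comp_apply]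
    exact (Ideal.ResidueField.lift_algebraMap _ _ _ _ a).symm)
  -- `κ' ⊗[A] M ≃ κ' ⊗[κ(p)] (κ(p) ⊗[A] M)` is nontrivial
  let e := AlgebraTensorModule.cancelBaseChange A p.asIdeal.ResidueField κ' κ' M
  have : Nontrivial (p.asIdeal.ResidueField ⊗[A] M) := hsupp
  have : Nontrivial (κ' ⊗[p.asIdeal.ResidueField] (p.asIdeal.ResidueField ⊗[A] M)) := by
    have : Module.Free p.asIdeal.ResidueField (p.asIdeal.ResidueField ⊗[A] M) :=
      Module.Free.of_divisionRing _ _
    infer_instance
  exact not_subsingleton _ (e.symm.toEquiv.subsingleton_congr.mp h0)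

/-- **Support and base change.** For a finitely generated `A`-module `M` and an `A`-algebra `A'`,
`A' ⊗[A] M = 0` iff the annihilator of `M` generates the unit ideal of `A'`. -/
theorem subsingleton_tensorProduct_iff :
    Subsingleton (A' ⊗[A] M) ↔ (Module.annihilator A M).map (algebraMap A A') = ⊤ :=
  ⟨annihilator_map_eq_top_of_subsingleton_tensorProduct M A',
    subsingleton_tensorProduct_of_annihilator_map_eq_top M A'⟩

end Vanishing

section Surjectivity

variable {A : Type u} [CommRing A] {E : Type v} {F : Type v} [AddCommGroup E] [Module A E]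
  [AddCommGroup F] [Module A F] (f : E →ₗ[A] F)
  (A' : Type w) [CommRing A'] [Algebra A A']

/-- `f.baseChange A'` is surjective iff `A' ⊗ coker f = 0` (right exactness of `⊗`). -/
theorem baseChange_surjective_iff_subsingleton :
    Function.Surjective (f.baseChange A') ↔
      Subsingleton (A' ⊗[A] (F ⧸ LinearMap.range f)) := by
  have hex : Function.Exact f (LinearMap.range f).mkQ := by
    intro y
    rw [Submodule.mkQ_apply, Submodule.Quotient.mk_eq_zero]
    exact Iff.rfl
  have hsurj : Function.Surjective (LinearMap.range f).mkQ := Submodule.mkQ_surjective _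
  have hex' := lTensor_exact A' hex hsurj
  have hsurj' : Function.Surjective ((LinearMap.range f).mkQ.lTensor A') :=
    LinearMap.lTensor_surjective A' hsurj
  have hfun : (f.baseChange A' : A' ⊗[A] E → A' ⊗[A] F) = f.lTensor A' :=
    LinearMap.baseChange_eq_ltensor f
  constructor
  · intro h
    refine ⟨fun z w => ?_⟩
    obtain ⟨z', rfl⟩ := hsurj' z
    obtain ⟨w', rfl⟩ := hsurj' w
    obtain ⟨z'', hz⟩ := h z'
    obtain ⟨w'', hw⟩ := h w'
    rw [hfun] at hz hw
    rw [(hex' z').mpr ⟨z'', hz⟩, (hex' w').mpr ⟨w'', hw⟩]
  · intro h z
    have : ((LinearMap.range f).mkQ.lTensor A') z = 0 := Subsingleton.elim _ _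
    obtain ⟨z', hz'⟩ := (hex' z).mp this
    exact ⟨z', by rw [hfun]; exact hz'⟩

variable [Module.Finite A F]

/-- **Surjectivity locus.** For `f : E → F` with `F` finitely generated, `f.baseChange A'` is
surjective iff the annihilator of `coker f` generates the unit ideal of `A'`. -/
theorem baseChange_surjective_iff :
    Function.Surjective (f.baseChange A') ↔
      (Module.annihilator A (F ⧸ LinearMap.range f)).map (algebraMap A A') = ⊤ := by
  rw [baseChange_surjective_iff_subsingleton, subsingleton_tensorProduct_iff]

end Surjectivity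

end Fermat.Agent.S25.H791
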