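import Fermat.Agent.S25.H791.ACSplit
import Fermat.Agent.S25.H446.PtIdeal
import Fermat.Agent.S25.H610.SecBC
import Fermat.Agent.S25.H310.ACDeg1
import Fermat.Agent.S25.H205.ACGdc

/-!
# S25 / ALGCHARTS, helper791: `H⁰(G(nE₀ - Σq))` is finite projective of rank one

For a curve chart over an algebraically closed field `k`, a gluing datum `G` over `A` of degree
zero on the fibres:

* `rankAtStalk_sec` : under `P0`, `H⁰(G(nE₀))` has rank `n d + 1 - g` at every prime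
  (DEG1 on the fibre at the prime + base change of `sec`);
* `evq`, `evq_surjective`, `kerEvqEquiv` : the evaluation `H⁰(G(nE₀)) → N₀ ⧸ I_q N₀`, onto under
  `P1`, with kernel `H⁰(G(nE₀ - Σq))`;
* `secq_finite`, `secq_projective`, `rankAtStalk_secq` : under `P1` and `m + g = n d`,
  `H⁰(G(nE₀ - Σq))` is finite projective of rank one.
-/

set_option autoImplicit false
set_option linter.style.haveILetI false
set_option linter.unusedSectionVars false
set_option linter.unusedVariables false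

universe u

open scoped TensorProduct

namespace Fermat.Agent.S25.H791

open Fermat.Agent.S25 Fermat.Agent.S25.H11

section

variable {k : Type u} [Field k] [IsAlgClosed k]
  {B₀ B₁ B₀₁ : Type u} [CommRing B₀] [CommRing B₁] [CommRing B₀₁]
  [Algebra k B₀] [Algebra k B₁] [Algebra k B₀₁] [Algebra B₀ B₀₁] [Algebra B₁ B₀₁]
  [IsScalarTower k B₀ B₀₁] [IsScalarTower k B₁ B₀₁]
  {x : B₀} {y : B₁} {e : B₁ →ₐ[k] k}
  {A : Type u} [CommRing A] [Algebra k A]

/-- Under `P0` and degree zero on the fibres, `H⁰(G(nE₀))` has rank `n d + 1 - g` at every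
prime of `A`. -/
theorem rankAtStalk_sec (hC : IsCurveChart k B₀ B₁ B₀₁ x y e) (G : CurveGD k B₀ B₁ B₀₁ A)
    (hdeg : G.Deg0) (n : ℕ) (h0 : P0 x n G) (p : PrimeSpectrum A) :
    Module.rankAtStalk (R := A) (sec x n G) p +
        Module.finrank k (GlueDatum.unit k (k ⊗[k] B₀) (k ⊗[k] B₁) (k ⊗[k] B₀₁)).H1 =
      n * Module.finrank k (B₁ ⧸ Ideal.span {y}) + 1 := by
  let φ : A →ₐ[k] p.asIdeal.ResidueField := IsScalarTower.toAlgHom k A p.asIdeal.ResidueField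
  obtain ⟨GK, hbc⟩ := H205.gdc_exists (B₀ := B₀) (B₁ := B₁) (B₀₁ := B₀₁) φ G
  have hdegK : GK.degree = 0 := hdeg _ φ GK hbc
  have h0K : P0 x n GK := H610.P0_of_isBC φ hbc x n h0
  obtain ⟨hfin, hrk⟩ := H310.finrank_sec hC GK hdegK n h0K
  obtain ⟨bc⟩ := hbc
  have h := H610.rankAtStalk_sec_of_baseChangeMaps hC φ bc n h0
    (⊥ : PrimeSpectrum p.asIdeal.ResidueField)
  have hp : PrimeSpectrum.comap φ.toRingHom (⊥ : PrimeSpectrum p.asIdeal.ResidueField) = p := by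
    ext a
    show φ a ∈ (⊥ : Ideal p.asIdeal.ResidueField) ↔ a ∈ p.asIdeal
    rw [Ideal.mem_bot]
    exact Ideal.algebraMap_residueField_eq_zero
  rw [hp] at h
  rw [← h, Module.rankAtStalk_eq_finrank_of_free]
  exact hrk

end

section Evq

variable {k : Type u} [Field k]
  {B₀ B₁ B₀₁ : Type u} [CommRing B₀] [CommRing B₁] [CommRing B₀₁]
  [Algebra k B₀] [Algebra k B₁] [Algebra k B₀₁] [Algebra B₀ B₀₁] [Algebra B₁ B₀₁]
  [IsScalarTower k B₀ B₀₁] [IsScalarTower k B₁ B₀₁]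
  {x : B₀} {y : B₁} {e : B₁ →ₐ[k] k}
  {A : Type u} [CommRing A] [Algebra k A]

/-- The evaluation map `H⁰(G(nE₀)) → N₀ ⧸ I_q N₀`. -/
def evq (x : B₀) (n : ℕ) {m : ℕ} (q : Fin m → (B₀ →ₐ[k] k)) (G : CurveGD k B₀ B₁ B₀₁ A) :
    sec x n G →ₗ[A] (G.N₀ ⧸ vanq q G) :=
  ((vanq q G).mkQ.restrictScalars A) ∘ₗ (LinearMap.fst A G.N₀ G.N₁) ∘ₗ (sec x n G).subtype

theorem evq_apply (x : B₀) (n : ℕ) {m : ℕ} (q : Fin m → (B₀ →ₐ[k] k))
    (G : CurveGD k B₀ B₁ B₀₁ A) (s : sec x n G) :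
    evq x n q G s = Submodule.Quotient.mk (s : G.N₀ × G.N₁).1 := rfl

/-- Under `P1` the evaluation map is onto. -/
theorem evq_surjective {n : ℕ} {m : ℕ} {q : Fin m → (B₀ →ₐ[k] k)}
    {G : CurveGD k B₀ B₁ B₀₁ A} (h1 : P1 x n q G) : Function.Surjective (evq x n q G) := by
  intro z
  obtain ⟨a, rfl⟩ := Submodule.Quotient.mk_surjective _ z
  obtain ⟨s, hs, hv⟩ := h1.2 a
  refine ⟨⟨s, hs⟩, ?_⟩
  rw [evq_apply, Submodule.Quotient.eq]
  have : s.1 - a = -(a - s.1) := by abel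
  rw [this]
  exact (vanq q G).neg_mem hv

theorem mem_ker_evq_iff {n : ℕ} {m : ℕ} {q : Fin m → (B₀ →ₐ[k] k)}
    {G : CurveGD k B₀ B₁ B₀₁ A} (s : sec x n G) :
    s ∈ LinearMap.ker (evq x n q G) ↔ (s : G.N₀ × G.N₁) ∈ secq x n q G := by
  rw [LinearMap.mem_ker, evq_apply, Submodule.Quotient.mk_eq_zero, mem_secq]
  exact ⟨fun h => ⟨s.2, h⟩, fun h => h.2⟩

/-- The kernel of the evaluation map is `H⁰(G(nE₀ - Σq))`. -/
def kerEvqEquiv (x : B₀) (n : ℕ) {m : ℕ} (q : Fin m → (B₀ →ₐ[k] k))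
    (G : CurveGD k B₀ B₁ B₀₁ A) : LinearMap.ker (evq x n q G) ≃ₗ[A] secq x n q G where
  toFun s := ⟨((s : sec x n G) : G.N₀ × G.N₁), (mem_ker_evq_iff s.1).mp s.2⟩
  map_add' _ _ := rfl
  map_smul' _ _ := rfl
  invFun t := ⟨⟨(t : G.N₀ × G.N₁), t.2.1⟩, (mem_ker_evq_iff _).mpr t.2⟩
  left_inv _ := rfl
  right_inv _ := rfl

end Evq

section Rank

variable {k : Type u} [Field k] [IsAlgClosed k]
  {B₀ B₁ B₀₁ : Type u} [CommRing B₀] [CommRing B₁] [CommRing B₀₁]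
  [Algebra k B₀] [Algebra k B₁] [Algebra k B₀₁] [Algebra B₀ B₀₁] [Algebra B₁ B₀₁]
  [IsScalarTower k B₀ B₀₁] [IsScalarTower k B₁ B₀₁]
  {x : B₀} {y : B₁} {e : B₁ →ₐ[k] k}
  {A : Type u} [CommRing A] [Algebra k A]

/-- Under `P1`, `H⁰(G(nE₀ - Σq))` is a finite projective `A`-module. -/
theorem secq_finite_projective (hC : IsCurveChart k B₀ B₁ B₀₁ x y e) (n : ℕ) {m : ℕ}
    (q : Fin m → (B₀ →ₐ[k] k)) (G : CurveGD k B₀ B₁ B₀₁ A) (h1 : P1 x n q G) :
    Module.Finite A (secq x n q G) ∧ Module.Projective A (secq x n q G) := by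
  obtain ⟨-, hfin, hproj⟩ := H610.sec_finite_projective hC G n h1.1
  haveI := hfin
  haveI := hproj
  haveI := H446.vanq_quotient_projective hC q G
  obtain ⟨hf, hp⟩ := ker_finite_projective (evq x n q G) (evq_surjective h1)
  haveI := hf
  haveI := hp
  exact ⟨Module.Finite.equiv (kerEvqEquiv x n q G),
    Module.Projective.of_equiv (kerEvqEquiv x n q G)⟩

/-- Under `P1`, degree zero on the fibres and `m + g = n d`, `H⁰(G(nE₀ - Σq))` has rank one at
every prime of `A`. -/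
theorem rankAtStalk_secq (hC : IsCurveChart k B₀ B₁ B₀₁ x y e) (i : ChartIndex k B₀)
    (hnum : i.Numeric B₀₁ y) (G : CurveGD k B₀ B₁ B₀₁ A) (hdeg : G.Deg0)
    (h1 : P1 x i.n i.q G) (p : PrimeSpectrum A) :
    Module.rankAtStalk (R := A) (secq x i.n i.q G) p = 1 := by
  obtain ⟨-, hfin, hproj⟩ := H610.sec_finite_projective hC G i.n h1.1
  haveI := hfin
  haveI := hproj
  haveI := H446.vanq_quotient_projective hC i.q G
  haveI := H446.vanq_quotient_finite hC i.q G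
  have hadd := rankAtStalk_ker_add (evq x i.n i.q G) (evq_surjective h1) p
  have hsec := rankAtStalk_sec hC G hdeg i.n h1.1 p
  have hq := H446.vanq_quotient_rank hC i.q G p
  have heq : Module.rankAtStalk (R := A) (LinearMap.ker (evq x i.n i.q G)) p =
      Module.rankAtStalk (R := A) (secq x i.n i.q G) p :=
    congrFun (Module.rankAtStalk_eq_of_equiv (kerEvqEquiv x i.n i.q G)) p
  obtain ⟨hn1, hn2⟩ := hnum
  rw [hq, heq] at hadd
  rw [← hn2, ← hn1] at hsec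
  omega

end Rank

end Fermat.Agent.S25.H791
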