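import Mathlib

/-!
# S25 / ALGCHARTS, helper791: kernels of surjections onto projective modules

Pure commutative algebra (Mathlib only).

* `exists_equiv_ker_prod` : a surjection `f : P → Q` onto a projective module splits,
  `P ≃ ker f × Q`;
* `ker_finite_projective` : then `ker f` is finite projective if `P` is;
* `rankAtStalk_ker_add` : `rank P = rank (ker f) + rank Q`;
* `injective_of_surjective_of_rankAtStalk_eq_one` : a surjection from a finite projective module
  of rank one onto the ring is injective.
-/

set_option autoImplicit false
set_option linter.style.haveILetI false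
set_option linter.unusedSectionVars false

universe u v w

namespace Fermat.Agent.S25.H791

section Split

variable {A : Type u} [CommRing A] {P : Type v} {Q : Type w} [AddCommGroup P] [Module A P]
  [AddCommGroup Q] [Module A Q]

/-- A surjection onto a projective module splits: `P ≃ ker f × Q`. -/
theorem exists_equiv_ker_prod (f : P →ₗ[A] Q) (hf : Function.Surjective f)
    [Module.Projective A Q] :
    ∃ ε : P ≃ₗ[A] (LinearMap.ker f × Q), ∀ p, (ε p).2 = f p := by
  obtain ⟨σ, hσ⟩ := Module.projective_lifting_property f LinearMap.id hf
  have hσ' : ∀ q, f (σ q) = q := fun q => LinearMap.congr_fun hσ q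
  let r : P →ₗ[A] LinearMap.ker f :=
    (LinearMap.id - σ ∘ₗ f).codRestrict (LinearMap.ker f) (fun p => by
      rw [LinearMap.mem_ker, LinearMap.sub_apply, map_sub, LinearMap.comp_apply, hσ']
      simp)
  have hr : ∀ p, ((r p : LinearMap.ker f) : P) = p - σ (f p) := fun p => rfl
  refine ⟨
    { toFun := fun p => (r p, f p)
      map_add' := fun a b => by rw [map_add, map_add]; rfl
      map_smul' := fun c a => by rw [map_smul, map_smul]; rfl
      invFun := fun z => (z.1 : P) + σ z.2
      left_inv := fun p => by
        show ((r p : LinearMap.ker f) : P) + σ (f p) = p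
        rw [hr, sub_add_cancel]
      right_inv := fun z => by
        obtain ⟨⟨c, hc⟩, q⟩ := z
        have hc0 : f c = 0 := LinearMap.mem_ker.mp hc
        have h1 : f (c + σ q) = q := by rw [map_add, hc0, zero_add, hσ']
        have h2 : r (c + σ q) = ⟨c, hc⟩ := by
          apply Subtype.ext
          rw [hr, h1]
          show c + σ q - σ q = c
          rw [add_sub_cancel_right]
        show (r (c + σ q), f (c + σ q)) = (⟨c, hc⟩, q)
        rw [h1, h2] }, fun p => rfl⟩

/-- The kernel of a surjection from a finite projective module onto a projective module is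
finite projective. -/
theorem ker_finite_projective (f : P →ₗ[A] Q) (hf : Function.Surjective f)
    [Module.Finite A P] [Module.Projective A P] [Module.Projective A Q] :
    Module.Finite A (LinearMap.ker f) ∧ Module.Projective A (LinearMap.ker f) := by
  obtain ⟨ε, -⟩ := exists_equiv_ker_prod f hf
  have hsurj : Function.Surjective ((LinearMap.fst A (LinearMap.ker f) Q) ∘ₗ ε.toLinearMap) :=
    (LinearMap.fst_surjective (R := A) (M := LinearMap.ker f) (M₂ := Q)).comp ε.surjective
  refine ⟨Module.Finite.of_surjective _ hsurj, ?_⟩
  refine Module.Projective.of_split (R := A) (M := P)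
    (ε.symm.toLinearMap ∘ₗ LinearMap.inl A (LinearMap.ker f) Q)
    ((LinearMap.fst A (LinearMap.ker f) Q) ∘ₗ ε.toLinearMap) ?_
  ext c
  simp

/-- Additivity of the rank for a surjection onto a projective module. -/
theorem rankAtStalk_ker_add (f : P →ₗ[A] Q) (hf : Function.Surjective f)
    [Module.Finite A P] [Module.Projective A P] [Module.Finite A Q] [Module.Projective A Q]
    (p : PrimeSpectrum A) :
    Module.rankAtStalk (R := A) P p =
      Module.rankAtStalk (R := A) (LinearMap.ker f) p + Module.rankAtStalk (R := A) Q p := by
  obtain ⟨ε, -⟩ := exists_equiv_ker_prod f hf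
  obtain ⟨h1, h2⟩ := ker_finite_projective f hf
  rw [Module.rankAtStalk_eq_of_equiv ε, Module.rankAtStalk_prod]
  rfl

/-- A surjection from a finite projective module of rank one onto the ring is injective. -/
theorem injective_of_surjective_of_rankAtStalk_eq_one (f : P →ₗ[A] A)
    (hf : Function.Surjective f) [Module.Finite A P] [Module.Projective A P]
    (hr : ∀ p : PrimeSpectrum A, Module.rankAtStalk (R := A) P p = 1) :
    Function.Injective f := by
  rcases subsingleton_or_nontrivial A with hA | hA
  · haveI : Subsingleton P := Module.subsingleton A P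
    exact Function.injective_of_subsingleton f
  obtain ⟨h1, h2⟩ := ker_finite_projective f hf
  have h0 : Module.rankAtStalk (R := A) (LinearMap.ker f) = 0 := by
    funext p
    have h := rankAtStalk_ker_add f hf p
    rw [hr p, Module.rankAtStalk_self, Pi.one_apply] at h
    simp only [Pi.zero_apply]
    omega
  have hsub : Subsingleton (LinearMap.ker f) := Module.rankAtStalk_eq_zero_iff_subsingleton.mp h0
  rw [← LinearMap.ker_eq_bot]
  exact (Submodule.subsingleton_iff_eq_bot).mp hsub

end Split

end Fermat.Agent.S25.H791
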