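import Fermat.Agent.S25.H11.ACDefs
import Fermat.Agent.S25.H250.AdapterProj
import Fermat.Agent.S25.H790.CechK2
import Fermat.Agent.S25.H10.K0
import Fermat.Agent.S25.H550.GDBaseChangeLin
import Fermat.Agent.S25.H791.SupportBaseChange

/-!
# S25 / ALGCHARTS, leaf ST0 (helper791): the locus `H¹(G(nE₀)) = 0`

`stage0_locus` : exact statement of `coord/S25-ALGCHARTS-skeleton.lean` (squad-lead helper11).
The ideal is the annihilator of the finitely generated `A`-module `H¹(G(nE₀))`.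

Reusable:
* `tcech_eq_d` : the twisted Čech differential of `ACDefs` is `(chartCechOps hC G).d n`;
* `finite_coker_tcech` : `H¹(G(nE₀))` is a finite `A`-module;
* `BCEquivs` / `exists_bcEquivs` : the three `A'`-linear comparison isomorphisms
  `A' ⊗[A] Nᵢ ≃ Nᵢ'` of a base change of gluing data, compatible with `tcech`;
* `p0_iff_baseChange_surjective`, `p0_iff_annihilator_map`, `P0.baseChange`.
-/

set_option autoImplicit false
set_option linter.style.haveILetI false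
set_option linter.unusedSectionVars false

universe u

open scoped TensorProduct

namespace Fermat.Agent.S25.H791

open Fermat.Agent.S25 Fermat.Agent.S25.H11

section Core

variable {k : Type u} [Field k]
  {B₀ B₁ B₀₁ : Type u} [CommRing B₀] [CommRing B₁] [CommRing B₀₁]
  [Algebra k B₀] [Algebra k B₁] [Algebra k B₀₁] [Algebra B₀ B₀₁] [Algebra B₁ B₀₁]
  [IsScalarTower k B₀ B₀₁] [IsScalarTower k B₁ B₀₁]
  {x : B₀} {y : B₁} {e : B₁ →ₐ[k] k}

section Finite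

variable {A : Type u} [CommRing A] [Algebra k A]

/-- The twisted Čech differential of `ACDefs` is the twisted differential of the operator-style
Čech datum of the chart. -/
theorem tcech_eq_d (hC : IsCurveChart k B₀ B₁ B₀₁ x y e) (n : ℕ)
    (G : CurveGD k B₀ B₁ B₀₁ A) : tcech x n G = (H250.chartCechOps hC G).d n := by
  haveI := hC.away₀
  haveI := hC.away₁
  apply LinearMap.ext
  rintro ⟨a, b⟩
  rw [tcech_apply, H10.CechOps.d_apply]
  show G.r₀ a - xElt k B₀₁ A x ^ n • G.r₁ b =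
    G.r₀ a - ((H250.toCechOps x y hC.mul_eq_one G).T ^ n) (G.r₁ b)
  rw [H250.toCechOps_T_pow_apply]
  rfl

/-- `H¹(G(nE₀))` is a finitely generated `A`-module. -/
theorem finite_coker_tcech (hC : IsCurveChart k B₀ B₁ B₀₁ x y e) (n : ℕ)
    (G : CurveGD k B₀ B₁ B₀₁ A) :
    Module.Finite A (G.N₀₁ ⧸ LinearMap.range (tcech x n G)) := by
  have h := H790.H1_finite (H250.chartCechOps hC G)
    (H10.isFG_of_isFGProj (H250.isFGProj_X0 hC G)) n
  have h' : Module.Finite A (G.N₀₁ ⧸ LinearMap.range ((H250.chartCechOps hC G).d n)) := h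
  rw [← tcech_eq_d hC n G] at h'
  exact h'

end Finite

section BaseChange

variable {A A' : Type u} [CommRing A] [Algebra k A] [CommRing A'] [Algebra k A'] [Algebra A A']
  [IsScalarTower k A A']

/-- The `A'`-linear comparison isomorphisms `A' ⊗[A] Nᵢ ≃ Nᵢ'` attached to base change maps
of gluing data. -/
structure BCEquivs (ψ : A →ₐ[k] A') {G : CurveGD k B₀ B₁ B₀₁ A} {G' : CurveGD k B₀ B₁ B₀₁ A'}
    (bc : GlueDatum.BaseChangeMaps (tensorMapLeft k ψ B₀) (tensorMapLeft k ψ B₁)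
      (tensorMapLeft k ψ B₀₁) G G') where
  E₀ : A' ⊗[A] G.N₀ ≃ₗ[A'] G'.N₀
  E₁ : A' ⊗[A] G.N₁ ≃ₗ[A'] G'.N₁
  E₀₁ : A' ⊗[A] G.N₀₁ ≃ₗ[A'] G'.N₀₁
  E₀_tmul : ∀ (s : A') (n : G.N₀), E₀ (s ⊗ₜ[A] n) = s • bc.b₀ n
  E₁_tmul : ∀ (s : A') (n : G.N₁), E₁ (s ⊗ₜ[A] n) = s • bc.b₁ n
  E₀₁_tmul : ∀ (s : A') (n : G.N₀₁), E₀₁ (s ⊗ₜ[A] n) = s • bc.b₀₁ n

/-- The comparison isomorphisms exist. -/
theorem exists_bcEquivs (ψ : A →ₐ[k] A') (hψ : ∀ a, ψ a = algebraMap A A' a)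
    {G : CurveGD k B₀ B₁ B₀₁ A} {G' : CurveGD k B₀ B₁ B₀₁ A'}
    (bc : GlueDatum.BaseChangeMaps (tensorMapLeft k ψ B₀) (tensorMapLeft k ψ B₁)
      (tensorMapLeft k ψ B₀₁) G G') : Nonempty (BCEquivs ψ bc) := by
  obtain ⟨E₀, hE₀⟩ :=
    H550.exists_equiv_of_isSemilinearBaseChange_tensor ψ hψ B₀ bc.b₀ bc.isBaseChange₀
  obtain ⟨E₁, hE₁⟩ :=
    H550.exists_equiv_of_isSemilinearBaseChange_tensor ψ hψ B₁ bc.b₁ bc.isBaseChange₁
  obtain ⟨E₀₁, hE₀₁⟩ :=
    H550.exists_equiv_of_isSemilinearBaseChange_tensor ψ hψ B₀₁ bc.b₀₁ bc.isBaseChange₀₁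
  exact ⟨⟨E₀, E₁, E₀₁, hE₀, hE₁, hE₀₁⟩⟩

omit [Algebra A A'] [IsScalarTower k A A'] in
/-- `tensorMapLeft` fixes `1 ⊗ x`. -/
theorem tensorMapLeft_xElt (ψ : A →ₐ[k] A') (x : B₀) :
    tensorMapLeft k ψ B₀₁ (xElt k B₀₁ A x) = xElt k B₀₁ A' x := by
  simp [tensorMapLeft, xElt]

omit [Algebra A A'] [IsScalarTower k A A'] in
/-- Base change maps commute with the twisted Čech differentials. -/
theorem tcech_bc (ψ : A →ₐ[k] A') {G : CurveGD k B₀ B₁ B₀₁ A} {G' : CurveGD k B₀ B₁ B₀₁ A'}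
    (bc : GlueDatum.BaseChangeMaps (tensorMapLeft k ψ B₀) (tensorMapLeft k ψ B₁)
      (tensorMapLeft k ψ B₀₁) G G') (x : B₀) (n : ℕ) (a : G.N₀) (b : G.N₁) :
    tcech x n G' (bc.b₀ a, bc.b₁ b) = bc.b₀₁ (tcech x n G (a, b)) := by
  rw [tcech_apply, tcech_apply, map_sub, bc.comm₀, bc.b₀₁.map_smulₛₗ, bc.comm₁, map_pow,
    tensorMapLeft_xElt]

namespace BCEquivs

variable {ψ : A →ₐ[k] A'} {G : CurveGD k B₀ B₁ B₀₁ A} {G' : CurveGD k B₀ B₁ B₀₁ A'}
  {bc : GlueDatum.BaseChangeMaps (tensorMapLeft k ψ B₀) (tensorMapLeft k ψ B₁)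
      (tensorMapLeft k ψ B₀₁) G G'} (E : BCEquivs ψ bc)

/-- The comparison isomorphism on Čech cochains. -/
noncomputable def prod : A' ⊗[A] (G.N₀ × G.N₁) ≃ₗ[A'] (G'.N₀ × G'.N₁) :=
  (TensorProduct.prodRight A A' A' G.N₀ G.N₁).trans (E.E₀.prodCongr E.E₁)

theorem prod_tmul (s : A') (p : G.N₀ × G.N₁) :
    E.prod (s ⊗ₜ[A] p) = (s • bc.b₀ p.1, s • bc.b₁ p.2) := by
  obtain ⟨a, b⟩ := p
  rw [prod, LinearEquiv.trans_apply, TensorProduct.prodRight_tmul]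
  show (E.E₀ (s ⊗ₜ[A] a), E.E₁ (s ⊗ₜ[A] b)) = _
  rw [E.E₀_tmul, E.E₁_tmul]

/-- The comparison isomorphisms intertwine the twisted Čech differentials. -/
theorem tcech_prod (x : B₀) (n : ℕ) (t : A' ⊗[A] (G.N₀ × G.N₁)) :
    tcech x n G' (E.prod t) = E.E₀₁ ((tcech x n G).baseChange A' t) := by
  induction t using TensorProduct.induction_on with
  | zero => simp
  | add t u ht hu => simp only [map_add, ht, hu]
  | tmul s p =>
    have hsm : (s • bc.b₀ p.1, s • bc.b₁ p.2) =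
        s • ((bc.b₀ p.1, bc.b₁ p.2) : G'.N₀ × G'.N₁) := rfl
    rw [prod_tmul, LinearMap.baseChange_tmul, E.E₀₁_tmul, ← tcech_bc ψ bc x n p.1 p.2,
      hsm, map_smul]

/-- `P0` for the base change is surjectivity of the base-changed differential. -/
theorem p0_iff (E : BCEquivs ψ bc) (x : B₀) (n : ℕ) :
    P0 x n G' ↔ Function.Surjective ((tcech x n G).baseChange A') := by
  constructor
  · intro h z
    obtain ⟨p, hp⟩ := h (E.E₀₁ z)
    refine ⟨E.prod.symm p, E.E₀₁.injective ?_⟩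
    rw [← E.tcech_prod, LinearEquiv.apply_symm_apply, hp]
  · intro h z
    obtain ⟨t, ht⟩ := h (E.E₀₁.symm z)
    refine ⟨E.prod t, ?_⟩
    rw [E.tcech_prod, ht, LinearEquiv.apply_symm_apply]

end BCEquivs

/-- `P0` for a base change `G'` of `G` along `A → A'`, in terms of the annihilator of
`H¹(G(nE₀))`. -/
theorem p0_iff_annihilator_map (hC : IsCurveChart k B₀ B₁ B₀₁ x y e) (n : ℕ)
    (ψ : A →ₐ[k] A') (hψ : ∀ a, ψ a = algebraMap A A' a)
    {G : CurveGD k B₀ B₁ B₀₁ A} {G' : CurveGD k B₀ B₁ B₀₁ A'} (h : CurveGD.IsBC ψ G G') :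
    P0 x n G' ↔
      (Module.annihilator A (G.N₀₁ ⧸ LinearMap.range (tcech x n G))).map
        (algebraMap A A') = ⊤ := by
  obtain ⟨bc⟩ := h
  obtain ⟨E⟩ := exists_bcEquivs ψ hψ bc
  haveI := finite_coker_tcech hC n G
  rw [E.p0_iff x n, baseChange_surjective_iff_subsingleton, subsingleton_tensorProduct_iff]

/-- `P0` is stable under base change. -/
theorem p0_baseChange (n : ℕ)
    (ψ : A →ₐ[k] A') (hψ : ∀ a, ψ a = algebraMap A A' a)
    {G : CurveGD k B₀ B₁ B₀₁ A} {G' : CurveGD k B₀ B₁ B₀₁ A'} (h : CurveGD.IsBC ψ G G')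
    (h0 : P0 x n G) : P0 x n G' := by
  obtain ⟨bc⟩ := h
  obtain ⟨E⟩ := exists_bcEquivs ψ hψ bc
  rw [E.p0_iff x n]
  exact LinearMap.lTensor_surjective A' h0

end BaseChange

end Core

section Main

variable {k : Type u} [Field k] [IsAlgClosed k]
  {B₀ B₁ B₀₁ : Type u} [CommRing B₀] [CommRing B₁] [CommRing B₀₁]
  [Algebra k B₀] [Algebra k B₁] [Algebra k B₀₁] [Algebra B₀ B₀₁] [Algebra B₁ B₀₁]
  [IsScalarTower k B₀ B₀₁] [IsScalarTower k B₁ B₀₁]
  {x : B₀} {y : B₁} {e : B₁ →ₐ[k] k}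
  {A : Type u} [CommRing A] [Algebra k A]

/-- **STAGE 0** (exact skeleton statement): the locus `H¹(G(nE₀)) = 0`. -/
theorem stage0_locus (hC : IsCurveChart k B₀ B₁ B₀₁ x y e) (n : ℕ)
    (G : CurveGD k B₀ B₁ B₀₁ A) :
    ∃ J : Ideal A, ∀ (A' : Type u) [CommRing A'] [Algebra k A'] (ψ : A →ₐ[k] A')
      (G' : CurveGD k B₀ B₁ B₀₁ A'), CurveGD.IsBC ψ G G' →
        (P0 x n G' ↔ J.map ψ.toRingHom = ⊤) := by
  refine ⟨Module.annihilator A (G.N₀₁ ⧸ LinearMap.range (tcech x n G)), ?_⟩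
  intro A' _ _ ψ G' h
  letI : Algebra A A' := ψ.toRingHom.toAlgebra
  haveI : IsScalarTower k A A' := IsScalarTower.of_algebraMap_eq' (by
    ext c
    exact (ψ.commutes c).symm)
  exact p0_iff_annihilator_map hC n ψ (fun _ => rfl) h

end Main

end Fermat.Agent.S25.H791
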