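import Fermat.Agent.S25.H11.ACLeaves
import Fermat.Agent.S25.H791.ACSecqRank
import Fermat.Agent.S25.H791.ACPointBC

/-!
# S25 / ALGCHARTS, leaf ST2 (helper791): the locus where `H⁰(G(nE₀ - Σq))` generates `N₁ / y N₁`

`stage2_locus` : exact statement of `coord/S25-ALGCHARTS-skeleton.lean` (squad-lead helper11);
`leaf_stage2 : H11.Leaf.Stage2 k B₀ B₁ B₀₁`.

The ideal is the annihilator of the finitely generated `A`-module
`N₁ ⧸ (y N₁ + R₁ · snd H⁰(G(nE₀ - Σq)))`.

Reusable:
* `genSub x y n q G` : the `R₁`-submodule `y N₁ + R₁ · snd H⁰(G(nE₀ - Σq))` of `N₁`;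
* `genSub_eq_top_of_isGen`, `exists_isGen_of_genSub_eq_top` : `∃ s, IsGen s ↔ genSub = ⊤`, for a
  rigidifiable `G` whose `H⁰(G(nE₀ - Σq))` is finite projective of rank one;
* `surjective_of_isSemilinearBaseChange` : a semilinear base change along a surjective ring map
  is surjective;
* `span_image_eq_top_iff` : `A'·b(W) = N' ↔ A' ⊗ (N ⧸ W) = 0`;
* `BCEquivs.genSub_bc` : under `P1`, `genSub G' = A' · b₁(genSub G)`;
* `p2_iff_annihilator_map`.
-/

set_option autoImplicit false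
set_option linter.style.haveILetI false
set_option linter.unusedSectionVars false
set_option linter.unusedVariables false

universe u

open scoped TensorProduct
open Polynomial

namespace Fermat.Agent.S25.H791

open Fermat.Agent.S25 Fermat.Agent.S25.H11

section Semilinear

/-- A semilinear base change along a surjective ring map is surjective. -/
theorem surjective_of_isSemilinearBaseChange {R R' : Type u} [CommRing R] [CommRing R']
    {ρ : R →+* R'} (hρ : Function.Surjective ρ) {N N' : Type u} [AddCommGroup N] [Module R N]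
    [AddCommGroup N'] [Module R' N'] {b : N →ₛₗ[ρ] N'} (hb : IsSemilinearBaseChange ρ b) :
    Function.Surjective b := by
  unfold IsSemilinearBaseChange at hb
  letI : Algebra R R' := ρ.toAlgebra
  letI : Module R N' := Module.compHom N' ρ
  haveI : IsScalarTower R R' N' := ⟨fun r r' n => by
    change (ρ r * r') • n = ρ r • (r' • n); rw [mul_smul]⟩
  intro z
  refine hb.inductionOn z (fun z => ∃ n, b n = z) ⟨0, map_zero b⟩ (fun n => ⟨n, rfl⟩) ?_ ?_
  · rintro r' _ ⟨n, rfl⟩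
    obtain ⟨r, rfl⟩ := hρ r'
    exact ⟨r • n, b.map_smulₛₗ r n⟩
  · rintro _ _ ⟨n₁, rfl⟩ ⟨n₂, rfl⟩
    exact ⟨n₁ + n₂, map_add b n₁ n₂⟩

end Semilinear

section Core

variable {k : Type u} [Field k]
  {B₀ B₁ B₀₁ : Type u} [CommRing B₀] [CommRing B₁] [CommRing B₀₁]
  [Algebra k B₀] [Algebra k B₁] [Algebra k B₀₁] [Algebra B₀ B₀₁] [Algebra B₁ B₀₁]
  [IsScalarTower k B₀ B₀₁] [IsScalarTower k B₁ B₀₁]
  {x : B₀} {y : B₁} {e : B₁ →ₐ[k] k}

section GenSub

variable {A : Type u} [CommRing A] [Algebra k A]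

/-- The `R₁`-submodule `y N₁ + R₁ · snd H⁰(G(nE₀ - Σq))` of `N₁`. -/
def genSub (x : B₀) (y : B₁) (n : ℕ) {m : ℕ} (q : Fin m → (B₀ →ₐ[k] k))
    (G : CurveGD k B₀ B₁ B₀₁ A) : Submodule (A ⊗[k] B₁) G.N₁ :=
  (Ideal.span {yElt k A y} • (⊤ : Submodule (A ⊗[k] B₁) G.N₁)) ⊔
    Submodule.span (A ⊗[k] B₁)
      ((fun s : G.N₀ × G.N₁ => s.2) '' (secq x n q G : Set (G.N₀ × G.N₁)))

theorem smul_mem_genSub {n : ℕ} {m : ℕ} {q : Fin m → (B₀ →ₐ[k] k)}
    {G : CurveGD k B₀ B₁ B₀₁ A} (c : G.N₁) : yElt k A y • c ∈ genSub x y n q G :=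
  Submodule.mem_sup_left
    (Submodule.smul_mem_smul (Ideal.subset_span rfl) Submodule.mem_top)

theorem snd_mem_genSub {n : ℕ} {m : ℕ} {q : Fin m → (B₀ →ₐ[k] k)}
    {G : CurveGD k B₀ B₁ B₀₁ A} {s : G.N₀ × G.N₁} (hs : s ∈ secq x n q G) :
    s.2 ∈ genSub x y n q G :=
  Submodule.mem_sup_right (Submodule.subset_span ⟨s, hs, rfl⟩)

/-- If `H⁰(G(nE₀ - Σq))` has a generator which generates `N₁` modulo `y`, then
`y N₁ + R₁ · snd H⁰ = N₁`. -/
theorem genSub_eq_top_of_isGen {n : ℕ} {m : ℕ} {q : Fin m → (B₀ →ₐ[k] k)}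
    {G : CurveGD k B₀ B₁ B₀₁ A} {s : G.N₀ × G.N₁} (hs : IsGen x y n q G s) :
    genSub x y n q G = ⊤ := by
  rw [Submodule.eq_top_iff']
  intro c
  obtain ⟨r, hr⟩ := hs.gen c
  have hc : c = (c - r • s.2) + r • s.2 := by abel
  rw [hc]
  exact Submodule.add_mem _ (Submodule.mem_sup_left hr)
    (Submodule.smul_mem _ _ (snd_mem_genSub hs.mem))

/-- The marked point kills `1 ⊗ y`. -/
theorem epsHom_yElt_eq_zero (he : e y = 0) : epsHom e A (yElt k A y) = 0 := by
  simp [epsHom, yElt, he]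

theorem epsHom_surjective (e : B₁ →ₐ[k] k) : Function.Surjective (epsHom e A) := fun a =>
  ⟨algebraMap A (A ⊗[k] B₁) a, (epsHom e A).commutes a⟩

/-- The rigidification, restricted to `H⁰(G(nE₀ - Σq))`: an `A`-linear form. -/
def rigSecq (x : B₀) (n : ℕ) {m : ℕ} (q : Fin m → (B₀ →ₐ[k] k)) {G : CurveGD k B₀ B₁ B₀₁ A}
    (b : G.N₁ →ₛₗ[(epsHom e A).toRingHom] A) : secq x n q G →ₗ[A] A where
  toFun t := b (t : G.N₀ × G.N₁).2
  map_add' t u := by
    show b ((t : G.N₀ × G.N₁).2 + (u : G.N₀ × G.N₁).2) = _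
    rw [map_add]
  map_smul' a t := by
    show b (a • (t : G.N₀ × G.N₁).2) = a • b (t : G.N₀ × G.N₁).2
    rw [← algebraMap_smul (A ⊗[k] B₁) a (t : G.N₀ × G.N₁).2, b.map_smulₛₗ]
    show (epsHom e A) (algebraMap A (A ⊗[k] B₁) a) • _ = _
    rw [(epsHom e A).commutes a]
    rfl

theorem rigSecq_apply (x : B₀) (n : ℕ) {m : ℕ} (q : Fin m → (B₀ →ₐ[k] k))
    {G : CurveGD k B₀ B₁ B₀₁ A} (b : G.N₁ →ₛₗ[(epsHom e A).toRingHom] A)
    (t : secq x n q G) : rigSecq x n q b t = b (t : G.N₀ × G.N₁).2 := rfl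

/-- The rigidification of an element of `genSub` is the value of `rigSecq` on a section. -/
theorem rig_mem_range_of_mem_genSub (he : e y = 0) {n : ℕ} {m : ℕ}
    {q : Fin m → (B₀ →ₐ[k] k)} {G : CurveGD k B₀ B₁ B₀₁ A}
    (b : G.N₁ →ₛₗ[(epsHom e A).toRingHom] A) {c : G.N₁} (hc : c ∈ genSub x y n q G) :
    b c ∈ LinearMap.range (rigSecq x n q b) := by
  rw [genSub, Submodule.mem_sup] at hc
  obtain ⟨u, hu, w, hw, rfl⟩ := hc
  have hu0 : b u = 0 := by
    refine Submodule.smul_induction_on hu (fun r hr c _ => ?_) (fun a b' ha hb => ?_)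
    · obtain ⟨r', rfl⟩ := Ideal.mem_span_singleton'.mp hr
      rw [b.map_smulₛₗ]
      show (epsHom e A) (r' * yElt k A y) • b c = 0
      rw [map_mul, epsHom_yElt_eq_zero he, mul_zero, zero_smul]
    · rw [map_add, ha, hb, add_zero]
  rw [map_add, hu0, zero_add]
  refine Submodule.span_induction (p := fun w _ => b w ∈ LinearMap.range (rigSecq x n q b))
    ?_ ?_ ?_ ?_ hw
  · rintro _ ⟨t, ht, rfl⟩
    exact ⟨⟨t, ht⟩, rfl⟩
  · rw [map_zero]; exact Submodule.zero_mem _
  · intro a b' _ _ ha hb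
    rw [map_add]; exact Submodule.add_mem _ ha hb
  · intro r w _ hw
    rw [b.map_smulₛₗ]
    exact Submodule.smul_mem _ _ hw

/-- If `y N₁ + R₁ · snd H⁰ = N₁`, `G` is rigidifiable and `H⁰(G(nE₀ - Σq))` is finite projective
of rank one, then `H⁰(G(nE₀ - Σq))` is free on a section which generates `N₁` modulo `y`. -/
theorem exists_isGen_of_genSub_eq_top (he : e y = 0) {n : ℕ} {m : ℕ}
    {q : Fin m → (B₀ →ₐ[k] k)} {G : CurveGD k B₀ B₁ B₀₁ A} (hrig : G.Rigidifiable e)
    [Module.Finite A (secq x n q G)] [Module.Projective A (secq x n q G)]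
    (hrk : ∀ p : PrimeSpectrum A, Module.rankAtStalk (R := A) (secq x n q G) p = 1)
    (htop : genSub x y n q G = ⊤) : ∃ s, IsGen x y n q G s := by
  obtain ⟨b, hb⟩ := hrig
  have hbsurj : Function.Surjective b :=
    surjective_of_isSemilinearBaseChange (epsHom_surjective e) hb
  have hsurj : Function.Surjective (rigSecq x n q b) := by
    intro a
    obtain ⟨c, rfl⟩ := hbsurj a
    exact rig_mem_range_of_mem_genSub he b (by rw [htop]; exact Submodule.mem_top)
  have hinj := injective_of_surjective_of_rankAtStalk_eq_one (rigSecq x n q b) hsurj hrk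
  obtain ⟨s, hs⟩ := hsurj 1
  have hspan : ∀ t ∈ secq x n q G, ∃ a : A, t = a • (s : G.N₀ × G.N₁) := by
    intro t ht
    refine ⟨rigSecq x n q b ⟨t, ht⟩, ?_⟩
    have h1 : (⟨t, ht⟩ : secq x n q G) = rigSecq x n q b ⟨t, ht⟩ • s := by
      apply hinj
      rw [map_smul, hs, smul_eq_mul, mul_one]
    exact congrArg Subtype.val h1
  refine ⟨(s : G.N₀ × G.N₁), s.2, hspan, ?_⟩
  intro c
  have hc : c ∈ genSub x y n q G := by rw [htop]; exact Submodule.mem_top
  rw [genSub, Submodule.mem_sup] at hc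
  obtain ⟨u, hu, w, hw, rfl⟩ := hc
  have hle : Submodule.span (A ⊗[k] B₁)
      ((fun s : G.N₀ × G.N₁ => s.2) '' (secq x n q G : Set (G.N₀ × G.N₁))) ≤
      Submodule.span (A ⊗[k] B₁) {(s : G.N₀ × G.N₁).2} := by
    rw [Submodule.span_le]
    rintro _ ⟨t, ht, rfl⟩
    obtain ⟨a, rfl⟩ := hspan t ht
    show a • (s : G.N₀ × G.N₁).2 ∈ _
    rw [← algebraMap_smul (A ⊗[k] B₁) a (s : G.N₀ × G.N₁).2]
    exact Submodule.smul_mem _ _ (Submodule.mem_span_singleton_self _)
  obtain ⟨r, hr⟩ := Submodule.mem_span_singleton.mp (hle hw)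
  refine ⟨r, ?_⟩
  rw [hr, add_sub_cancel_right]
  exact hu

end GenSub

section Finite

variable (A : Type u) [CommRing A] [Algebra k A]

/-- For a curve chart, `A ⊗ B₁` is finite over `A[X]` via `X ↦ 1 ⊗ y`. -/
theorem finite_aeval_tmul_y (hC : IsCurveChart k B₀ B₁ B₀₁ x y e) :
    (aeval ((1 : A) ⊗ₜ[k] y : A ⊗[k] B₁) : A[X] →ₐ[A] A ⊗[k] B₁).Finite := by
  haveI := hC.isDomain₁
  obtain ⟨n, φ, hφ⟩ := H250.exists_equivariant_equiv (H250.aeval_y_injective hC) hC.finite₁
  obtain ⟨Φ, hΦ⟩ := H250.exists_equivariant_equiv_tensor φ hφ A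
  exact finite_aeval_of_equivariant _ Φ hΦ

variable {A}

/-- For a finitely generated `A ⊗ B₁`-module `N`, the quotient `N ⧸ y N` is a finite
`A`-module. -/
theorem finite_quotient_y_smul (hC : IsCurveChart k B₀ B₁ B₀₁ x y e)
    (N : Type u) [AddCommGroup N] [Module (A ⊗[k] B₁) N] [Module A N]
    [IsScalarTower A (A ⊗[k] B₁) N] [Module.Finite (A ⊗[k] B₁) N] :
    Module.Finite A (N ⧸ (Ideal.span {yElt k A y} • ⊤ : Submodule (A ⊗[k] B₁) N)) := by
  refine finite_of_monic_aeval_smul_eq_zero ((1 : A) ⊗ₜ[k] y : A ⊗[k] B₁)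
    (finite_aeval_tmul_y A hC) X monic_X (fun z => ?_)
  obtain ⟨n, rfl⟩ := Submodule.Quotient.mk_surjective _ z
  rw [aeval_X, ← Submodule.Quotient.mk_smul, Submodule.Quotient.mk_eq_zero]
  exact Submodule.smul_mem_smul (Ideal.subset_span rfl) Submodule.mem_top

/-- `N₁ ⧸ (y N₁ + R₁ · snd H⁰(G(nE₀ - Σq)))` is a finite `A`-module. -/
theorem finite_quotient_genSub (hC : IsCurveChart k B₀ B₁ B₀₁ x y e) (n : ℕ) {m : ℕ}
    (q : Fin m → (B₀ →ₐ[k] k)) (G : CurveGD k B₀ B₁ B₀₁ A) :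
    Module.Finite A (G.N₁ ⧸ (genSub x y n q G).restrictScalars A) := by
  haveI := G.invertible₁
  haveI : Module.Finite A
      (G.N₁ ⧸ (Ideal.span {yElt k A y} • ⊤ : Submodule (A ⊗[k] B₁) G.N₁)) :=
    finite_quotient_y_smul hC G.N₁
  haveI : Module.Finite A (G.N₁ ⧸
      (Ideal.span {yElt k A y} • ⊤ : Submodule (A ⊗[k] B₁) G.N₁).restrictScalars A) :=
    Module.Finite.equiv (Submodule.Quotient.restrictScalarsEquiv A
      (Ideal.span {yElt k A y} • ⊤ : Submodule (A ⊗[k] B₁) G.N₁)).symm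
  have hle : (Ideal.span {yElt k A y} • ⊤ : Submodule (A ⊗[k] B₁) G.N₁).restrictScalars A ≤
      LinearMap.ker ((genSub x y n q G).restrictScalars A).mkQ := by
    rw [Submodule.ker_mkQ]
    intro c hc
    exact Submodule.mem_sup_left hc
  refine Module.Finite.of_surjective
    (((Ideal.span {yElt k A y} • ⊤ : Submodule (A ⊗[k] B₁) G.N₁).restrictScalars A).liftQ
      ((genSub x y n q G).restrictScalars A).mkQ hle) ?_
  intro z
  obtain ⟨a, rfl⟩ := Submodule.Quotient.mk_surjective _ z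
  exact ⟨Submodule.Quotient.mk a, rfl⟩

end Finite

section BaseChange

variable {A A' : Type u} [CommRing A] [Algebra k A] [CommRing A'] [Algebra k A'] [Algebra A A']
  [IsScalarTower k A A']

/-- For a comparison isomorphism `E : A' ⊗ N ≃ N'`, `E (s ⊗ n) = s • b n`, and a submodule `W`
of `N`: the `A'`-span of `b(W)` is everything iff `A' ⊗ (N ⧸ W) = 0`. -/
theorem span_image_eq_top_iff {N N' : Type u} [AddCommGroup N] [Module A N] [AddCommGroup N']
    [Module A' N'] (E : A' ⊗[A] N ≃ₗ[A'] N') (b : N → N')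
    (hE : ∀ (s : A') (n : N), E (s ⊗ₜ[A] n) = s • b n) (W : Submodule A N) :
    Submodule.span A' (b '' (W : Set N)) = ⊤ ↔ Subsingleton (A' ⊗[A] (N ⧸ W)) := by
  have hmem : ∀ w : A' ⊗[A] W,
      E (W.subtype.baseChange A' w) ∈ Submodule.span A' (b '' (W : Set N)) := by
    intro w
    induction w using TensorProduct.induction_on with
    | zero => simp
    | add w₁ w₂ h₁ h₂ => rw [map_add, map_add]; exact Submodule.add_mem _ h₁ h₂
    | tmul s w =>
      rw [LinearMap.baseChange_tmul, hE]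
      exact Submodule.smul_mem _ s (Submodule.subset_span ⟨w.1, w.2, rfl⟩)
  constructor
  · intro htop
    have hall : ∀ t : A' ⊗[A] N, t ∈ LinearMap.range (W.subtype.baseChange A') := by
      intro t
      have ht : E t ∈ Submodule.span A' (b '' (W : Set N)) := by
        rw [htop]; exact Submodule.mem_top
      have key : ∀ v ∈ Submodule.span A' (b '' (W : Set N)),
          E.symm v ∈ LinearMap.range (W.subtype.baseChange A') := by
        intro v hv
        refine Submodule.span_induction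
          (p := fun v _ => E.symm v ∈ LinearMap.range (W.subtype.baseChange A'))
          ?_ ?_ ?_ ?_ hv
        · rintro _ ⟨w, hw, rfl⟩
          refine ⟨(1 : A') ⊗ₜ[A] (⟨w, hw⟩ : W), ?_⟩
          rw [LinearMap.baseChange_tmul, LinearEquiv.eq_symm_apply, hE, one_smul]
          rfl
        · rw [map_zero]; exact Submodule.zero_mem _
        · intro a c _ _ ha hc
          rw [map_add]; exact Submodule.add_mem _ ha hc
        · intro a c _ hc
          rw [map_smul]; exact Submodule.smul_mem _ _ hc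
      have := key _ ht
      rwa [LinearEquiv.symm_apply_apply] at this
    refine ⟨fun a c => ?_⟩
    have hzero : ∀ c : A' ⊗[A] (N ⧸ W), c = 0 := by
      intro c
      obtain ⟨t, rfl⟩ := LinearMap.lTensor_surjective A' (Submodule.mkQ_surjective W) c
      have := hall t
      rw [← ker_mkQ_baseChange_eq, LinearMap.mem_ker] at this
      rw [← this]
      exact (congrFun (LinearMap.baseChange_eq_ltensor (A := A') W.mkQ) t).symm
    rw [hzero a, hzero c]
  · intro hsub
    rw [Submodule.eq_top_iff']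
    intro a'
    have hker : E.symm a' ∈ LinearMap.ker (W.mkQ.baseChange A') := by
      rw [LinearMap.mem_ker]
      exact Subsingleton.elim _ _
    rw [ker_mkQ_baseChange_eq] at hker
    obtain ⟨w, hw⟩ := hker
    have := hmem w
    rwa [hw, LinearEquiv.apply_symm_apply] at this

namespace BCEquivs

variable {ψ : A →ₐ[k] A'} {G : CurveGD k B₀ B₁ B₀₁ A} {G' : CurveGD k B₀ B₁ B₀₁ A'}
  {bc : GlueDatum.BaseChangeMaps (tensorMapLeft k ψ B₀) (tensorMapLeft k ψ B₁)
      (tensorMapLeft k ψ B₀₁) G G'}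

/-- The `A'`-span of the image under `b₁` of an `R₁`-submodule of `N₁` is stable under
`R₁' = A' ⊗ B₁`. -/
theorem smul_mem_span_image (E : BCEquivs ψ bc) (W : Submodule (A ⊗[k] B₁) G.N₁)
    (r' : A' ⊗[k] B₁) {v : G'.N₁} (hv : v ∈ Submodule.span A' (bc.b₁ '' (W : Set G.N₁))) :
    r' • v ∈ Submodule.span A' (bc.b₁ '' (W : Set G.N₁)) := by
  induction r' using TensorProduct.induction_on with
  | zero => rw [zero_smul]; exact Submodule.zero_mem _
  | add r₁ r₂ h₁ h₂ => rw [add_smul]; exact Submodule.add_mem _ h₁ h₂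
  | tmul a β =>
    have h1 : (a ⊗ₜ[k] β : A' ⊗[k] B₁) =
        algebraMap A' (A' ⊗[k] B₁) a * tensorMapLeft k ψ B₁ ((1 : A) ⊗ₜ[k] β) := by
      rw [Algebra.TensorProduct.algebraMap_apply]
      simp [tensorMapLeft]
    rw [h1, mul_smul, algebraMap_smul]
    refine Submodule.smul_mem _ a ?_
    refine Submodule.span_induction
      (p := fun v _ => tensorMapLeft k ψ B₁ ((1 : A) ⊗ₜ[k] β) • v ∈
        Submodule.span A' (bc.b₁ '' (W : Set G.N₁))) ?_ ?_ ?_ ?_ hv
    · rintro _ ⟨w, hw, rfl⟩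
      rw [← bc.b₁.map_smulₛₗ]
      exact Submodule.subset_span ⟨_, W.smul_mem _ hw, rfl⟩
    · rw [smul_zero]; exact Submodule.zero_mem _
    · intro c d _ _ hc hd
      rw [smul_add]; exact Submodule.add_mem _ hc hd
    · intro c d _ hd
      rw [smul_comm]
      exact Submodule.smul_mem _ c hd

/-- Under `P1` for `G`: `y N₁' + R₁' · snd H⁰(G'(nE₀ - Σq))` is the `A'`-span of the image of
`y N₁ + R₁ · snd H⁰(G(nE₀ - Σq))`. -/
theorem genSub_bc (E : BCEquivs ψ bc) (hC : IsCurveChart k B₀ B₁ B₀₁ x y e)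
    (n : ℕ) {m : ℕ} (q : Fin m → (B₀ →ₐ[k] k)) (h1 : P1 x n q G) :
    (genSub x y n q G').restrictScalars A' =
      Submodule.span A' (bc.b₁ '' (genSub x y n q G : Set G.N₁)) := by
  apply le_antisymm
  · -- `y' • n'` lies in the span
    have hy : ∀ n' : G'.N₁, yElt k A' y • n' ∈
        Submodule.span A' (bc.b₁ '' (genSub x y n q G : Set G.N₁)) := by
      intro n'
      obtain ⟨t, rfl⟩ := E.E₁.surjective n'
      induction t using TensorProduct.induction_on with
      | zero => rw [map_zero, smul_zero]; exact Submodule.zero_mem _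
      | add t u ht hu => rw [map_add, smul_add]; exact Submodule.add_mem _ ht hu
      | tmul s c =>
        rw [E.E₁_tmul, smul_comm, ← tensorMapLeft_yElt ψ y, ← bc.b₁.map_smulₛₗ]
        exact Submodule.smul_mem _ s (Submodule.subset_span ⟨_, smul_mem_genSub c, rfl⟩)
    intro v hv
    rw [Submodule.restrictScalars_mem, genSub, Submodule.mem_sup] at hv
    obtain ⟨u, hu, w, hw, rfl⟩ := hv
    refine Submodule.add_mem _ ?_ ?_
    · refine Submodule.smul_induction_on hu (fun r hr c _ => ?_) (fun a b ha hb => ?_)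
      · obtain ⟨r', rfl⟩ := Ideal.mem_span_singleton'.mp hr
        rw [mul_smul]
        exact E.smul_mem_span_image _ r' (hy c)
      · exact Submodule.add_mem _ ha hb
    · refine Submodule.span_induction
        (p := fun w _ => w ∈ Submodule.span A' (bc.b₁ '' (genSub x y n q G : Set G.N₁)))
        ?_ ?_ ?_ ?_ hw
      · rintro _ ⟨t', ht', rfl⟩
        have h := E.mem_span_of_mem_secq hC n q h1 ht'
        refine Submodule.span_induction
          (p := fun t' _ => t'.2 ∈ Submodule.span A' (bc.b₁ '' (genSub x y n q G : Set G.N₁)))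
          ?_ ?_ ?_ ?_ h
        · rintro _ ⟨s, hs, rfl⟩
          exact Submodule.subset_span ⟨s.2, snd_mem_genSub hs, rfl⟩
        · exact Submodule.zero_mem _
        · intro a b _ _ ha hb
          exact Submodule.add_mem _ ha hb
        · intro a b _ hb
          exact Submodule.smul_mem _ a hb
      · exact Submodule.zero_mem _
      · intro a b _ _ ha hb
        exact Submodule.add_mem _ ha hb
      · intro r w _ hw
        exact E.smul_mem_span_image _ r hw
  · rw [Submodule.span_le]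
    rintro _ ⟨c, hc, rfl⟩
    rw [SetLike.mem_coe, Submodule.restrictScalars_mem]
    rw [SetLike.mem_coe, genSub, Submodule.mem_sup] at hc
    obtain ⟨u, hu, w, hw, rfl⟩ := hc
    rw [map_add]
    refine Submodule.add_mem _ (Submodule.mem_sup_left ?_) (Submodule.mem_sup_right ?_)
    · refine Submodule.smul_induction_on hu (fun r hr c _ => ?_) (fun a b ha hb => ?_)
      · rw [bc.b₁.map_smulₛₗ]
        refine Submodule.smul_mem_smul ?_ Submodule.mem_top
        obtain ⟨r', rfl⟩ := Ideal.mem_span_singleton'.mp hr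
        rw [map_mul, tensorMapLeft_yElt]
        exact Ideal.mul_mem_left _ _ (Ideal.subset_span rfl)
      · rw [map_add]
        exact Submodule.add_mem _ ha hb
    · refine Submodule.span_induction
        (p := fun w _ => bc.b₁ w ∈ Submodule.span (A' ⊗[k] B₁)
          ((fun s : G'.N₀ × G'.N₁ => s.2) '' (secq x n q G' : Set (G'.N₀ × G'.N₁))))
        ?_ ?_ ?_ ?_ hw
      · rintro _ ⟨s, hs, rfl⟩
        exact Submodule.subset_span
          ⟨(bc.b₀ s.1, bc.b₁ s.2), ⟨bc_mem_sec ψ bc x n hs.1, bc_mem_vanq ψ bc q hs.2⟩, rfl⟩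
      · rw [map_zero]; exact Submodule.zero_mem _
      · intro a b _ _ ha hb
        rw [map_add]; exact Submodule.add_mem _ ha hb
      · intro r w _ hw
        rw [bc.b₁.map_smulₛₗ]
        exact Submodule.smul_mem _ _ hw

/-- Under `P1` for `G`: the generation condition for `G'` is the vanishing of
`A' ⊗ (N₁ ⧸ genSub)`. -/
theorem genSub_eq_top_iff (E : BCEquivs ψ bc) (hC : IsCurveChart k B₀ B₁ B₀₁ x y e)
    (n : ℕ) {m : ℕ} (q : Fin m → (B₀ →ₐ[k] k)) (h1 : P1 x n q G) :
    genSub x y n q G' = ⊤ ↔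
      Subsingleton (A' ⊗[A] (G.N₁ ⧸ (genSub x y n q G).restrictScalars A)) := by
  rw [← span_image_eq_top_iff E.E₁ bc.b₁ E.E₁_tmul ((genSub x y n q G).restrictScalars A)]
  have h := E.genSub_bc (y := y) hC n q h1
  have hcoe : (((genSub x y n q G).restrictScalars A : Submodule A G.N₁) : Set G.N₁) =
      (genSub x y n q G : Set G.N₁) := rfl
  rw [hcoe, ← h]
  constructor
  · intro htop
    rw [htop]
    rfl
  · intro htop
    rw [Submodule.eq_top_iff']
    intro c
    have : c ∈ (genSub x y n q G').restrictScalars A' := by rw [htop]; exact Submodule.mem_top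
    exact this

end BCEquivs

end BaseChange

end Core

section Main

variable {k : Type u} [Field k] [IsAlgClosed k]
  {B₀ B₁ B₀₁ : Type u} [CommRing B₀] [CommRing B₁] [CommRing B₀₁]
  [Algebra k B₀] [Algebra k B₁] [Algebra k B₀₁] [Algebra B₀ B₀₁] [Algebra B₁ B₀₁]
  [IsScalarTower k B₀ B₀₁] [IsScalarTower k B₁ B₀₁]
  {x : B₀} {y : B₁} {e : B₁ →ₐ[k] k}
  {A : Type u} [CommRing A] [Algebra k A]

/-- For a rigidifiable `G` of degree zero with `P1`: `P2` holds iff
`y N₁ + R₁ · snd H⁰(G(nE₀ - Σq)) = N₁`. -/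
theorem p2_iff_genSub_eq_top (hC : IsCurveChart k B₀ B₁ B₀₁ x y e) (i : ChartIndex k B₀)
    (hnum : i.Numeric B₀₁ y) (G : CurveGD k B₀ B₁ B₀₁ A) (hrig : G.Rigidifiable e)
    (hdeg : G.Deg0) (h1 : P1 x i.n i.q G) :
    P2 x y i.n i.q G ↔ genSub x y i.n i.q G = ⊤ := by
  obtain ⟨hfin, hproj⟩ := secq_finite_projective hC i.n i.q G h1
  haveI := hfin
  haveI := hproj
  have hrk := rankAtStalk_secq hC i hnum G hdeg h1
  constructor
  · rintro ⟨-, s, hs⟩
    exact genSub_eq_top_of_isGen hs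
  · intro htop
    exact ⟨h1, exists_isGen_of_genSub_eq_top hC.e_y hrig hrk htop⟩

/-- `P2` for a base change `G'` of `G` (with `P1` for `G`), in terms of the annihilator of
`N₁ ⧸ genSub`. -/
theorem p2_iff_annihilator_map {A' : Type u} [CommRing A'] [Algebra k A'] [Algebra A A']
    [IsScalarTower k A A'] (hC : IsCurveChart k B₀ B₁ B₀₁ x y e) (i : ChartIndex k B₀)
    (hnum : i.Numeric B₀₁ y) (ψ : A →ₐ[k] A') (hψ : ∀ a, ψ a = algebraMap A A' a)
    {G : CurveGD k B₀ B₁ B₀₁ A} {G' : CurveGD k B₀ B₁ B₀₁ A'} (h : CurveGD.IsBC ψ G G')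
    (hrig : G.Rigidifiable e) (hdeg : G.Deg0) (h1 : P1 x i.n i.q G) :
    P2 x y i.n i.q G' ↔
      (Module.annihilator A (G.N₁ ⧸ (genSub x y i.n i.q G).restrictScalars A)).map
        (algebraMap A A') = ⊤ := by
  have h1' : P1 x i.n i.q G' := p1_baseChange hC i.n i.q ψ hψ h h1
  have hrig' : G'.Rigidifiable e := H265.rigidifiable_of_isBC h hrig
  have hdeg' : G'.Deg0 := H265.deg0_of_isBC h hdeg
  rw [p2_iff_genSub_eq_top hC i hnum G' hrig' hdeg' h1']
  obtain ⟨bc⟩ := h
  obtain ⟨E⟩ := exists_bcEquivs ψ hψ bc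
  haveI := finite_quotient_genSub (y := y) hC i.n i.q G
  rw [← subsingleton_tensorProduct_iff, ← E.genSub_eq_top_iff hC i.n i.q h1]

/-- **STAGE 2** (exact skeleton statement): given `P1`, rigidifiability and degree 0, the locus
where the rank one module `H⁰(G(nE₀ - Σq))` generates `N₁ / y N₁`; there it is free on a
generator `s`. -/
theorem stage2_locus (hC : IsCurveChart k B₀ B₁ B₀₁ x y e) (i : ChartIndex k B₀)
    (hnum : i.Numeric B₀₁ y) (G : CurveGD k B₀ B₁ B₀₁ A) (hrig : G.Rigidifiable e)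
    (hdeg : G.Deg0) (h1 : P1 x i.n i.q G) :
    ∃ J : Ideal A, ∀ (A' : Type u) [CommRing A'] [Algebra k A'] (ψ : A →ₐ[k] A')
      (G' : CurveGD k B₀ B₁ B₀₁ A'), CurveGD.IsBC ψ G G' →
        (P2 x y i.n i.q G' ↔ J.map ψ.toRingHom = ⊤) := by
  refine ⟨Module.annihilator A (G.N₁ ⧸ (genSub x y i.n i.q G).restrictScalars A), ?_⟩
  intro A' _ _ ψ G' h
  letI : Algebra A A' := ψ.toRingHom.toAlgebra
  haveI : IsScalarTower k A A' := IsScalarTower.of_algebraMap_eq' (by
    ext c
    exact (ψ.commutes c).symm)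
  exact p2_iff_annihilator_map hC i hnum ψ (fun _ => rfl) h hrig hdeg h1

/-- Leaf `Stage2` of ALGCHARTS. -/
theorem leaf_stage2 : H11.Leaf.Stage2 k B₀ B₁ B₀₁ :=
  fun _ _ _ hC i hnum _ _ _ G hrig hdeg h1 => stage2_locus hC i hnum G hrig hdeg h1

end Main

end Fermat.Agent.S25.H791
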