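import Fermat.Agent.S25.H791.SupportBaseChange

/-!
# S25 / ALGCHARTS (helper791): fibrewise criterion and spreading out for surjectivity

For a linear map `f : E → F` of `A`-modules with `F` finitely generated:

* `surjective_of_forall_field` (FIB): if `f ⊗ K` is surjective for every field-valued point
  `A → K`, then `f` is surjective;
* `exists_mem_annihilator_of_baseChange_surjective` (SPREAD): if `f ⊗ K` is surjective at one
  field-valued point, there is `a ∈ Ann (coker f)` which does not vanish at that point;
* `baseChange_surjective_of_isUnit` : `f ⊗ A'` is then surjective whenever `a` becomes a unit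
  in `A'`;
* `surjective_iff_of_isBaseChange`, `surjective_of_isBaseChange_of_isUnit` : the same for base
  changes given by `IsBaseChange` data instead of tensor products.
-/

set_option autoImplicit false

open TensorProduct

namespace Fermat.Agent.S25.H791

universe u v w

section

variable {A : Type u} [CommRing A] {E : Type v} {F : Type v} [AddCommGroup E] [Module A E]
  [AddCommGroup F] [Module A F] (f : E →ₗ[A] F)

/-- An element of the annihilator of `coker f` which becomes a unit in `A'` forces
`f ⊗ A'` to be surjective (no finiteness needed). -/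
theorem baseChange_surjective_of_isUnit {a : A}
    (ha : a ∈ Module.annihilator A (F ⧸ LinearMap.range f))
    (A' : Type w) [CommRing A'] [Algebra A A'] (hu : IsUnit (algebraMap A A' a)) :
    Function.Surjective (f.baseChange A') := by
  rw [baseChange_surjective_iff_subsingleton]
  apply subsingleton_tensorProduct_of_annihilator_map_eq_top
  exact Ideal.eq_top_of_isUnit_mem _ (Ideal.mem_map_of_mem _ ha) hu

variable [Module.Finite A F]

/-- **SPREAD.** If `f ⊗ K` is surjective for a field-valued point `A → K`, some element of
the annihilator of `coker f` does not vanish at that point. -/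
theorem exists_mem_annihilator_of_baseChange_surjective (K : Type w) [Field K] [Algebra A K]
    (h : Function.Surjective (f.baseChange K)) :
    ∃ a ∈ Module.annihilator A (F ⧸ LinearMap.range f), algebraMap A K a ≠ 0 := by
  rw [baseChange_surjective_iff] at h
  by_contra hcon
  push Not at hcon
  have hle : (Module.annihilator A (F ⧸ LinearMap.range f)).map (algebraMap A K) ≤ ⊥ := by
    rw [Ideal.map_le_iff_le_comap]
    intro a ha
    exact Ideal.mem_comap.mpr (by simpa using hcon a ha)
  rw [h] at hle
  exact (bot_lt_top (α := Ideal K)).not_ge hle

/-- **FIB.** If `f ⊗ K` is surjective for every field `K` (in the universe of `A`) and every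
ring map `A → K`, then `f` is surjective. -/
theorem surjective_of_forall_field
    (h : ∀ (K : Type u) [Field K] [Algebra A K], Function.Surjective (f.baseChange K)) :
    Function.Surjective f := by
  have hann : Module.annihilator A (F ⧸ LinearMap.range f) = ⊤ := by
    by_contra hne
    obtain ⟨m, hm, hle⟩ := Ideal.exists_le_maximal _ hne
    let _ : Field (A ⧸ m) := Ideal.Quotient.field m
    obtain ⟨a, ha, ha0⟩ := exists_mem_annihilator_of_baseChange_surjective f (A ⧸ m) (h (A ⧸ m))
    apply ha0
    rw [Ideal.Quotient.algebraMap_eq, Ideal.Quotient.eq_zero_iff_mem]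
    exact hle ha
  have h1 : (1 : A) ∈ Module.annihilator A (F ⧸ LinearMap.range f) := by
    rw [hann]; exact Submodule.mem_top
  intro y
  have h2 := Module.mem_annihilator.mp h1 ((LinearMap.range f).mkQ y)
  rw [one_smul, Submodule.mkQ_apply, Submodule.Quotient.mk_eq_zero] at h2
  exact h2

end

section IsBaseChange

variable {A : Type u} [CommRing A] {E : Type v} {F : Type v} [AddCommGroup E] [Module A E]
  [AddCommGroup F] [Module A F] (f : E →ₗ[A] F)
  {A' : Type w} [CommRing A'] [Algebra A A']
  {E' F' : Type*} [AddCommGroup E'] [Module A E'] [Module A' E'] [IsScalarTower A A' E']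
  [AddCommGroup F'] [Module A F'] [Module A' F'] [IsScalarTower A A' F']
  {bE : E →ₗ[A] E'} {bF : F →ₗ[A] F'}

/-- A map `f'` between base changes (given by `IsBaseChange` data) which is compatible with
`f` is surjective iff `f.baseChange A'` is. -/
theorem surjective_iff_baseChange_surjective (hE : IsBaseChange A' bE) (hF : IsBaseChange A' bF)
    (f' : E' →ₗ[A'] F') (hcomm : ∀ e, f' (bE e) = bF (f e)) :
    Function.Surjective f' ↔ Function.Surjective (f.baseChange A') := by
  have key : ∀ z : A' ⊗[A] E, f' (hE.equiv z) = hF.equiv (f.baseChange A' z) := by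
    intro z
    induction z using TensorProduct.induction_on with
    | zero => simp
    | add z w hz hw => simp only [map_add, hz, hw]
    | tmul a e =>
      rw [IsBaseChange.equiv_tmul, LinearMap.baseChange_tmul, IsBaseChange.equiv_tmul,
        map_smul, hcomm]
  constructor
  · intro h z
    obtain ⟨e', he'⟩ := h (hF.equiv z)
    obtain ⟨w, rfl⟩ := hE.equiv.surjective e'
    refine ⟨w, hF.equiv.injective ?_⟩
    rw [← key, he']
  · intro h y
    obtain ⟨w, hw⟩ := h (hF.equiv.symm y)
    refine ⟨hE.equiv w, ?_⟩
    rw [key, hw, LinearEquiv.apply_symm_apply]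

/-- Surjectivity locus, `IsBaseChange` form. -/
theorem surjective_iff_of_isBaseChange [Module.Finite A F] (hE : IsBaseChange A' bE)
    (hF : IsBaseChange A' bF) (f' : E' →ₗ[A'] F') (hcomm : ∀ e, f' (bE e) = bF (f e)) :
    Function.Surjective f' ↔
      (Module.annihilator A (F ⧸ LinearMap.range f)).map (algebraMap A A') = ⊤ := by
  rw [surjective_iff_baseChange_surjective f hE hF f' hcomm, baseChange_surjective_iff]

/-- Spreading out, `IsBaseChange` form. -/
theorem surjective_of_isBaseChange_of_isUnit (hE : IsBaseChange A' bE)
    (hF : IsBaseChange A' bF) (f' : E' →ₗ[A'] F') (hcomm : ∀ e, f' (bE e) = bF (f e))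
    {a : A} (ha : a ∈ Module.annihilator A (F ⧸ LinearMap.range f))
    (hu : IsUnit (algebraMap A A' a)) : Function.Surjective f' := by
  rw [surjective_iff_baseChange_surjective f hE hF f' hcomm]
  exact baseChange_surjective_of_isUnit f ha A' hu

end IsBaseChange

end Fermat.Agent.S25.H791
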