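import Mathlib

/-!
# S25 / block HILB, leaf H5 (helper791)

Modules over valuation rings:
* `free_of_torsionFree_of_valuationRing` : a finitely generated torsion-free module over a
  valuation ring is free;
* `exists_primitive` : a nonzero element of a finite free module over a valuation ring is a
  scalar multiple of a primitive vector (nonzero modulo the maximal ideal).
-/

set_option autoImplicit false

universe u

namespace Fermat.Agent.S25.H791

/-- **H5a.** A finitely generated torsion-free module over a valuation ring is free. -/
theorem free_of_torsionFree_of_valuationRing (V : Type u) [CommRing V] [IsDomain V]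
    [ValuationRing V] (M : Type u) [AddCommGroup M] [Module V M] [Module.Finite V M]
    [NoZeroSMulDivisors V M] : Module.Free V M := by
  have htors : Submodule.torsion V M = ⊥ := by
    rw [eq_bot_iff]
    intro x hx
    rw [Submodule.mem_torsion_iff] at hx
    obtain ⟨a, ha⟩ := hx
    have : (a : V) • x = 0 := ha
    rcases smul_eq_zero.mp this with h | h
    · exact absurd h (nonZeroDivisors.coe_ne_zero a)
    · simpa using h
  have : Module.Flat V M := Module.Flat.flat_iff_torsion_eq_bot_of_isBezout.mpr htors
  exact Module.free_of_flat_of_isLocalRing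

/-- In a valuation ring, a finite nonempty family has a member dividing all the others. -/
theorem exists_dvd_all {V : Type u} [CommRing V] [IsDomain V] [ValuationRing V]
    {ι : Type*} (s : Finset ι) (hs : s.Nonempty) (c : ι → V) :
    ∃ j ∈ s, ∀ i ∈ s, c j ∣ c i := by
  classical
  induction hs using Finset.Nonempty.cons_induction with
  | singleton a => exact ⟨a, Finset.mem_singleton_self a, fun i hi => by
      rw [Finset.mem_singleton] at hi; rw [hi]⟩
  | cons a s ha hs ih =>
    obtain ⟨j, hj, hjs⟩ := ih
    rcases ValuationRing.dvd_total (c a) (c j) with h | h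
    · refine ⟨a, Finset.mem_cons_self a s, fun i hi => ?_⟩
      rcases Finset.mem_cons.mp hi with rfl | hi
      · exact dvd_rfl
      · exact h.trans (hjs i hi)
    · refine ⟨j, Finset.mem_cons.mpr (Or.inr hj), fun i hi => ?_⟩
      rcases Finset.mem_cons.mp hi with rfl | hi
      · exact h
      · exact hjs i hi

/-- **H5b.** Primitive vectors: a nonzero element of a finite free module over a valuation ring
is a scalar multiple of an element which is nonzero modulo the maximal ideal. -/
theorem exists_primitive (V : Type u) [CommRing V] [IsDomain V] [ValuationRing V]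
    (M : Type u) [AddCommGroup M] [Module V M] [Module.Finite V M] [Module.Free V M]
    (m : M) (hm : m ≠ 0) :
    ∃ (c : V) (m₀ : M), m = c • m₀ ∧ m₀ ∉ (IsLocalRing.maximalIdeal V) • (⊤ : Submodule V M) := by
  classical
  let b := Module.Free.chooseBasis V M
  have : Fintype (Module.Free.ChooseBasisIndex V M) := Module.Free.ChooseBasisIndex.fintype V M
  -- some coordinate of `m` is nonzero
  have hne : ∃ i, b.repr m i ≠ 0 := by
    by_contra h
    push Not at h
    apply hm
    apply b.repr.injective
    ext i
    simpa using h i
  obtain ⟨i₀, hi₀⟩ := hne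
  obtain ⟨j, -, hj⟩ := exists_dvd_all (V := V) (Finset.univ) ⟨i₀, Finset.mem_univ _⟩
    (fun i => b.repr m i)
  have hcj : b.repr m j ≠ 0 := by
    intro h0
    have := hj i₀ (Finset.mem_univ _)
    rw [h0, zero_dvd_iff] at this
    exact hi₀ this
  choose d hd using fun i => hj i (Finset.mem_univ i)
  have hdj : d j = 1 := by
    have := hd j
    have h2 : b.repr m j * 1 = b.repr m j * d j := by rw [mul_one]; exact this
    exact (mul_left_cancel₀ hcj h2).symm
  refine ⟨b.repr m j, ∑ i, d i • b i, ?_, ?_⟩
  · rw [Finset.smul_sum]
    conv_lhs => rw [← b.sum_repr m]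
    refine Finset.sum_congr rfl fun i _ => ?_
    rw [smul_smul, ← hd i]
  · intro hmem
    -- the `j`-th coordinate of an element of `𝔪 • ⊤` lies in `𝔪`
    have hcoord : ∀ x ∈ (IsLocalRing.maximalIdeal V) • (⊤ : Submodule V M),
        b.repr x j ∈ IsLocalRing.maximalIdeal V := by
      intro x hx
      refine Submodule.smul_induction_on hx (fun r hr n _ => ?_) (fun x y hx hy => ?_)
      · rw [map_smul, Finsupp.smul_apply, smul_eq_mul]
        exact Ideal.mul_mem_right _ _ hr
      · rw [map_add, Finsupp.add_apply]
        exact Ideal.add_mem _ hx hy
    have h1 := hcoord _ hmem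
    have h2 : b.repr (∑ i, d i • b i) j = d j := by
      rw [map_sum, Finsupp.finsetSum_apply]
      simp only [map_smul, Module.Basis.repr_self, Finsupp.smul_apply, smul_eq_mul]
      rw [Finset.sum_eq_single j]
      · simp
      · intro i _ hij
        simp [hij]
      · intro h; exact absurd (Finset.mem_univ j) h
    rw [h2, hdj] at h1
    exact (IsLocalRing.maximalIdeal V).ne_top_iff_one.mp (IsLocalRing.maximalIdeal.isMaximal V).ne_top h1

end Fermat.Agent.S25.H791
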